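/-
KL-A, node (5a) (owner: helper248).  Descent of elements of `laurentBaseChange ℚ̄ F₀`
to number fields: the field `laurentBaseChange ℚ̄ F₀` is the union of the images of
`laurentBaseChange K₀ F₀`, `K₀` running through the finite subextensions of `ℚ̄ / ℚ`.
-/
import Mathlib
import Fermat.Prelude.Def_ModularCurve_LaurentCoeff

set_option autoImplicit false

namespace Fermat.Agent.S18.Descent

open ModularCurve IntermediateField

noncomputable section

/-- `coeffMap` of an injective ring hom is injective. -/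
theorem coeffMap_injective {R S : Type*} [CommRing R] [CommRing S] (f : R →+* S)
    (hf : Function.Injective f) : Function.Injective (coeffMap f) := by
  intro x y h
  ext k
  apply hf
  have := congrArg (fun z => HahnSeries.coeff z k) h
  simpa using this

section General

variable {L L' : Type*} [Field L] [Field L'] [Algebra ℚ L] [Algebra ℚ L']
variable {F₀ : IntermediateField ℚ (LaurentSeries ℚ)}

/-- Shortcut instance: for `L = ↥K₀`, `K₀ : IntermediateField ℚ Ω`, the search for this instance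
is otherwise extremely slow. -/
instance instAlgebraLaurentBaseChange (L : Type*) [Field L] [Algebra ℚ L]
    (F₀ : IntermediateField ℚ (LaurentSeries ℚ)) : Algebra L (laurentBaseChange L F₀) :=
  inferInstance

theorem coeffMap_coeffEmb' (φ : L →+* L') (x : LaurentSeries ℚ) :
    coeffMap φ (coeffEmb L x) = coeffEmb L' x := by
  rw [coeffEmb, coeffMap_coeffMap]
  exact coeffMap_congr (Subsingleton.elim _ _) x

theorem coeffMap_algebraMap' (φ : L →+* L') (c : L) :
    coeffMap φ (algebraMap L (LaurentSeries L) c) = algebraMap L' (LaurentSeries L') (φ c) := by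
  rw [algebraMap_laurentSeries_eq_single, algebraMap_laurentSeries_eq_single, coeffMap_single]

/-- Functoriality of `laurentBaseChange` in the constant field. -/
theorem coeffMap_mem_laurentBaseChange' (φ : L →+* L') {x : LaurentSeries L}
    (hx : x ∈ laurentBaseChange L F₀) : coeffMap φ x ∈ laurentBaseChange L' F₀ := by
  rw [mem_laurentBaseChange_iff] at hx
  induction hx using Subfield.closure_induction with
  | mem y hy =>
      rcases hy with ⟨a, rfl⟩ | ⟨z, hz, rfl⟩
      · rw [coeffMap_algebraMap']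
        exact (laurentBaseChange L' F₀).algebraMap_mem _
      · rw [coeffMap_coeffEmb']
        exact coeffEmb_mem_laurentBaseChange L' hz
  | one => simp
  | add x y _ _ hx hy => simpa using add_mem hx hy
  | neg x _ hx => simpa using neg_mem hx
  | inv x _ hx => simpa using inv_mem hx
  | mul x y _ _ hx hy => simpa using mul_mem hx hy

/-- The ring hom `laurentBaseChange L F₀ →+* laurentBaseChange L' F₀` induced by `φ`. -/
def baseChangeMap (F₀ : IntermediateField ℚ (LaurentSeries ℚ)) (φ : L →+* L') :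
    laurentBaseChange L F₀ →+* laurentBaseChange L' F₀ where
  toFun x := ⟨coeffMap φ x, coeffMap_mem_laurentBaseChange' φ x.2⟩
  map_one' := by ext1; simp
  map_mul' x y := by ext1; simp
  map_zero' := by ext1; simp
  map_add' x y := by ext1; simp

@[simp] theorem coe_baseChangeMap (φ : L →+* L') (x : laurentBaseChange L F₀) :
    ((baseChangeMap F₀ φ x : laurentBaseChange L' F₀) : LaurentSeries L') = coeffMap φ x := rfl

theorem baseChangeMap_algebraMap (φ : L →+* L') (c : L) :
    baseChangeMap F₀ φ (algebraMap L (laurentBaseChange L F₀) c) =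
      algebraMap L' (laurentBaseChange L' F₀) (φ c) := by
  ext1
  exact coeffMap_algebraMap' φ c

theorem baseChangeMap_injective (φ : L →+* L') : Function.Injective (baseChangeMap F₀ φ) :=
  (baseChangeMap F₀ φ).injective

end General

section Union

variable {Ω : Type*} [Field Ω] [Algebra ℚ Ω]
variable (F₀ : IntermediateField ℚ (LaurentSeries ℚ))

/-- `x` is defined over the subfield `K₀` of `Ω`. -/
def DefinedOver (K₀ : IntermediateField ℚ Ω) (x : LaurentSeries Ω) : Prop :=
  ∃ y ∈ laurentBaseChange K₀ F₀, coeffMap (algebraMap K₀ Ω) y = x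

variable {F₀}

theorem DefinedOver.mono {K₀ K₁ : IntermediateField ℚ Ω} (h : K₀ ≤ K₁) {x : LaurentSeries Ω}
    (hx : DefinedOver F₀ K₀ x) : DefinedOver F₀ K₁ x := by
  obtain ⟨y, hy, rfl⟩ := hx
  refine ⟨coeffMap (IntermediateField.inclusion h : K₀ →+* K₁) y,
    coeffMap_mem_laurentBaseChange' _ hy, ?_⟩
  rw [coeffMap_coeffMap]
  exact coeffMap_congr (RingHom.ext fun c => rfl) y

theorem DefinedOver.mem {K₀ : IntermediateField ℚ Ω} {x : LaurentSeries Ω}
    (hx : DefinedOver F₀ K₀ x) : x ∈ laurentBaseChange Ω F₀ := by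
  obtain ⟨y, hy, rfl⟩ := hx
  exact coeffMap_mem_laurentBaseChange' _ hy

theorem DefinedOver.add {K₀ : IntermediateField ℚ Ω} {x x' : LaurentSeries Ω}
    (hx : DefinedOver F₀ K₀ x) (hx' : DefinedOver F₀ K₀ x') : DefinedOver F₀ K₀ (x + x') := by
  obtain ⟨y, hy, rfl⟩ := hx
  obtain ⟨y', hy', rfl⟩ := hx'
  exact ⟨y + y', add_mem hy hy', map_add _ _ _⟩

theorem DefinedOver.mul {K₀ : IntermediateField ℚ Ω} {x x' : LaurentSeries Ω}
    (hx : DefinedOver F₀ K₀ x) (hx' : DefinedOver F₀ K₀ x') : DefinedOver F₀ K₀ (x * x') := by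
  obtain ⟨y, hy, rfl⟩ := hx
  obtain ⟨y', hy', rfl⟩ := hx'
  exact ⟨y * y', mul_mem hy hy', map_mul _ _ _⟩

theorem DefinedOver.neg {K₀ : IntermediateField ℚ Ω} {x : LaurentSeries Ω}
    (hx : DefinedOver F₀ K₀ x) : DefinedOver F₀ K₀ (-x) := by
  obtain ⟨y, hy, rfl⟩ := hx
  exact ⟨-y, neg_mem hy, map_neg _ _⟩

theorem DefinedOver.inv {K₀ : IntermediateField ℚ Ω} {x : LaurentSeries Ω}
    (hx : DefinedOver F₀ K₀ x) : DefinedOver F₀ K₀ x⁻¹ := by
  obtain ⟨y, hy, rfl⟩ := hx
  exact ⟨y⁻¹, inv_mem hy, map_inv₀ _ _⟩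

theorem DefinedOver.one (K₀ : IntermediateField ℚ Ω) : DefinedOver F₀ K₀ (1 : LaurentSeries Ω) :=
  ⟨1, one_mem _, map_one _⟩

theorem definedOver_algebraMap {K₀ : IntermediateField ℚ Ω} {a : Ω} (ha : a ∈ K₀) :
    DefinedOver F₀ K₀ (algebraMap Ω (LaurentSeries Ω) a) :=
  ⟨algebraMap K₀ (LaurentSeries K₀) ⟨a, ha⟩, (laurentBaseChange K₀ F₀).algebraMap_mem _,
    coeffMap_algebraMap' _ _⟩

theorem definedOver_coeffEmb (K₀ : IntermediateField ℚ Ω) {z : LaurentSeries ℚ} (hz : z ∈ F₀) :
    DefinedOver F₀ K₀ (coeffEmb Ω z) :=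
  ⟨coeffEmb K₀ z, coeffEmb_mem_laurentBaseChange K₀ hz, coeffMap_coeffEmb' _ _⟩

/-- **Descent to number fields.**  If `Ω / ℚ` is algebraic, every element of
`laurentBaseChange Ω F₀` is defined over a finite subextension. -/
theorem exists_definedOver [Algebra.IsAlgebraic ℚ Ω] {x : LaurentSeries Ω}
    (hx : x ∈ laurentBaseChange Ω F₀) :
    ∃ K₀ : IntermediateField ℚ Ω, FiniteDimensional ℚ K₀ ∧ DefinedOver F₀ K₀ x := by
  rw [mem_laurentBaseChange_iff] at hx
  induction hx using Subfield.closure_induction with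
  | mem y hy =>
      rcases hy with ⟨a, rfl⟩ | ⟨z, hz, rfl⟩
      · refine ⟨ℚ⟮a⟯, ?_, definedOver_algebraMap (mem_adjoin_simple_self ℚ a)⟩
        exact IntermediateField.adjoin.finiteDimensional (Algebra.IsIntegral.isIntegral a)
      · exact ⟨⊥, inferInstance, definedOver_coeffEmb ⊥ hz⟩
  | one => exact ⟨⊥, inferInstance, DefinedOver.one ⊥⟩
  | add x y _ _ hx hy =>
      obtain ⟨K₀, h₀, hx⟩ := hx
      obtain ⟨K₁, h₁, hy⟩ := hy
      exact ⟨K₀ ⊔ K₁, IntermediateField.finiteDimensional_sup K₀ K₁,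
        (hx.mono le_sup_left).add (hy.mono le_sup_right)⟩
  | neg x _ hx =>
      obtain ⟨K₀, h₀, hx⟩ := hx
      exact ⟨K₀, h₀, hx.neg⟩
  | inv x _ hx =>
      obtain ⟨K₀, h₀, hx⟩ := hx
      exact ⟨K₀, h₀, hx.inv⟩
  | mul x y _ _ hx hy =>
      obtain ⟨K₀, h₀, hx⟩ := hx
      obtain ⟨K₁, h₁, hy⟩ := hy
      exact ⟨K₀ ⊔ K₁, IntermediateField.finiteDimensional_sup K₀ K₁,
        (hx.mono le_sup_left).mul (hy.mono le_sup_right)⟩

/-- Simultaneous descent of finitely many elements, over a field containing a prescribed finite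
set of constants and a prescribed finite subextension. -/
theorem exists_definedOver_finset [Algebra.IsAlgebraic ℚ Ω] (s : Finset (LaurentSeries Ω))
    (hs : ∀ x ∈ s, x ∈ laurentBaseChange Ω F₀) (c : Finset Ω)
    (K : IntermediateField ℚ Ω) [FiniteDimensional ℚ K] :
    ∃ K₀ : IntermediateField ℚ Ω, FiniteDimensional ℚ K₀ ∧ K ≤ K₀ ∧ (∀ a ∈ c, a ∈ K₀) ∧
      ∀ x ∈ s, DefinedOver F₀ K₀ x := by
  classical
  induction s using Finset.induction_on with
  | empty =>
      induction c using Finset.induction_on with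
      | empty => exact ⟨K, inferInstance, le_rfl, by simp, by simp⟩
      | insert a c _ ih =>
          obtain ⟨K₀, h₀, hK, hc, -⟩ := ih
          haveI : FiniteDimensional ℚ ℚ⟮a⟯ :=
            IntermediateField.adjoin.finiteDimensional (Algebra.IsIntegral.isIntegral a)
          refine ⟨K₀ ⊔ ℚ⟮a⟯, IntermediateField.finiteDimensional_sup _ _, hK.trans le_sup_left,
            ?_, by simp⟩
          intro b hb
          rcases Finset.mem_insert.mp hb with rfl | hb
          · exact (le_sup_right : ℚ⟮b⟯ ≤ K₀ ⊔ ℚ⟮b⟯) (mem_adjoin_simple_self ℚ b)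
          · exact (le_sup_left : K₀ ≤ K₀ ⊔ ℚ⟮a⟯) (hc b hb)
  | insert x s _ ih =>
      obtain ⟨K₀, h₀, hK, hc, hs'⟩ := ih fun y hy => hs y (Finset.mem_insert_of_mem hy)
      obtain ⟨K₁, h₁, hx⟩ := exists_definedOver (hs x (Finset.mem_insert_self x s))
      refine ⟨K₀ ⊔ K₁, IntermediateField.finiteDimensional_sup _ _, hK.trans le_sup_left,
        fun a ha => (le_sup_left : K₀ ≤ K₀ ⊔ K₁) (hc a ha), ?_⟩
      intro y hy
      rcases Finset.mem_insert.mp hy with rfl | hy
      · exact hx.mono le_sup_right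
      · exact (hs' y hy).mono le_sup_left

end Union

end

end Fermat.Agent.S18.Descent
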