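/-
KL-A, DESCENT, horizontal inputs (1): algebraic independence over `L` of Laurent series in
`L((q))` is preserved by the extension of coefficients `L((q)) → L'((q))`.
Owner: helper248.

Main tool: an `L`-linear form `lam : L' → L` induces an `L((q))`-linear map
`coeffLin lam : L'((q)) → L((q))`.
-/
import Mathlib
import Fermat.Prelude.Def_ModularCurve_LaurentCoeff

set_option autoImplicit false

noncomputable section

namespace Fermat.Agent.S18.Descent

open ModularCurve

variable {L L' : Type*} [Field L] [Field L'] [Algebra L L']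

/-- Coefficientwise application of an `L`-linear form. -/
def coeffLin (lam : L' →ₗ[L] L) (f : LaurentSeries L') : LaurentSeries L := f.map lam

@[simp]
theorem coeffLin_coeff (lam : L' →ₗ[L] L) (f : LaurentSeries L') (k : ℤ) :
    (coeffLin lam f).coeff k = lam (f.coeff k) := rfl

theorem coeffLin_zero (lam : L' →ₗ[L] L) : coeffLin lam 0 = 0 := by
  ext k; simp

theorem coeffLin_add (lam : L' →ₗ[L] L) (f g : LaurentSeries L') :
    coeffLin lam (f + g) = coeffLin lam f + coeffLin lam g := by
  ext k; simp

theorem coeffLin_sum {ι : Type*} (lam : L' →ₗ[L] L) (s : Finset ι) (f : ι → LaurentSeries L') :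
    coeffLin lam (∑ i ∈ s, f i) = ∑ i ∈ s, coeffLin lam (f i) := by
  classical
  induction s using Finset.induction_on with
  | empty => simp [coeffLin_zero]
  | insert a s ha ih => rw [Finset.sum_insert ha, Finset.sum_insert ha, coeffLin_add, ih]

theorem support_coeffLin_subset (lam : L' →ₗ[L] L) (f : LaurentSeries L') :
    (coeffLin lam f).support ⊆ f.support := by
  intro k hk
  simp only [HahnSeries.mem_support, coeffLin_coeff, ne_eq] at hk ⊢
  intro h0
  exact hk (by rw [h0, map_zero])

theorem support_coeffMap_subset (m : LaurentSeries L) :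
    (coeffMap (algebraMap L L') m).support ⊆ m.support := by
  intro k hk
  simp only [HahnSeries.mem_support, coeffMap_coeff, ne_eq] at hk ⊢
  intro h0
  exact hk (by rw [h0, map_zero])

/-- `coeffLin lam` is `L((q))`-linear. -/
theorem coeffLin_mul (lam : L' →ₗ[L] L) (m : LaurentSeries L) (f : LaurentSeries L') :
    coeffLin lam (coeffMap (algebraMap L L') m * f) = m * coeffLin lam f := by
  ext k
  rw [coeffLin_coeff, HahnSeries.coeff_mul_left' m.isPWO_support (support_coeffMap_subset m),
    HahnSeries.coeff_mul_right' f.isPWO_support (support_coeffLin_subset lam f), map_sum]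
  refine Finset.sum_congr rfl fun ij _ => ?_
  rw [coeffMap_coeff, coeffLin_coeff, ← Algebra.smul_def, map_smul, smul_eq_mul]

theorem coeffLin_algebraMap (lam : L' →ₗ[L] L) (c : L') :
    coeffLin lam (algebraMap L' (LaurentSeries L') c) = algebraMap L (LaurentSeries L) (lam c) := by
  rw [algebraMap_laurentSeries_eq_single, algebraMap_laurentSeries_eq_single]
  ext k
  rw [coeffLin_coeff]
  rcases eq_or_ne k 0 with rfl | hk
  · simp
  · simp [HahnSeries.coeff_single_of_ne hk]

/-- **Algebraic independence is preserved by extension of the coefficient field.** -/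
theorem algebraicIndependent_coeffMap {ι : Type*} {m : ι → LaurentSeries L}
    (h : AlgebraicIndependent L m) :
    AlgebraicIndependent L' (fun i => coeffMap (algebraMap L L') (m i)) := by
  classical
  rw [algebraicIndependent_iff]
  intro P hP
  by_contra hP0
  obtain ⟨s, hs⟩ := MvPolynomial.ne_zero_iff.mp hP0
  set a := MvPolynomial.coeff s P with ha
  -- a linear form with `lam 1 = 1`
  obtain ⟨lam, hlam⟩ := (Algebra.linearMap L L').exists_leftInverse_of_injective
    (LinearMap.ker_eq_bot.mpr (algebraMap L L').injective)
  have hlam1 : lam 1 = 1 := by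
    have := LinearMap.congr_fun hlam 1
    simpa using this
  let Q : MvPolynomial ι L := ∑ d ∈ P.support, MvPolynomial.monomial d (lam (a⁻¹ * P.coeff d))
  have hQ : MvPolynomial.aeval m Q = 0 := by
    have h1 : coeffLin lam (algebraMap L' (LaurentSeries L') a⁻¹ *
        MvPolynomial.aeval (fun i => coeffMap (algebraMap L L') (m i)) P) = 0 := by
      rw [hP, mul_zero, coeffLin_zero]
    rw [MvPolynomial.aeval_def, MvPolynomial.eval₂_eq, Finset.mul_sum, coeffLin_sum] at h1
    rw [map_sum, ← h1]
    refine Finset.sum_congr rfl fun d _ => ?_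
    rw [MvPolynomial.aeval_monomial]
    have h2 : (∏ i ∈ d.support, coeffMap (algebraMap L L') (m i) ^ d i) =
        coeffMap (algebraMap L L') (∏ i ∈ d.support, m i ^ d i) := by
      rw [map_prod]
      exact Finset.prod_congr rfl fun i _ => (map_pow _ _ _).symm
    rw [h2, ← mul_assoc, ← map_mul,
      mul_comm (algebraMap L' (LaurentSeries L') (a⁻¹ * MvPolynomial.coeff d P)),
      coeffLin_mul, coeffLin_algebraMap, mul_comm]
    rfl
  have hQ0 : Q = 0 := (algebraicIndependent_iff.mp h) Q hQ
  have hcoeff : MvPolynomial.coeff s Q = 1 := by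
    simp only [Q, MvPolynomial.coeff_sum, MvPolynomial.coeff_monomial]
    rw [Finset.sum_ite_eq' P.support s]
    rw [if_pos (MvPolynomial.mem_support_iff.mpr hs), ← ha, inv_mul_cancel₀ hs, hlam1]
  rw [hQ0, MvPolynomial.coeff_zero] at hcoeff
  exact zero_ne_one hcoeff

end Fermat.Agent.S18.Descent
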