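/-
KL-A, node (5) DESCENT, part (5c): places under an algebraic extension of the constant field.
Owner: helper248.

Abstract setting: `F/K`, `F'/K'` with ring homs `φ : K → K'`, `Φ : F → F'` compatible with the
structure maps, `K'` integral over `φ K`, `K'` algebraically closed of characteristic zero and
`F'/K'` a function field in one variable.

* `PlaceOver Φ v w`     : the place `v` of `F'/K'` restricts to the place `w` of `F/K`;
* `PlaceOver.exists_ord_eq_mul` : then `ord_v (Φ f) = e * ord_w f` with `e > 0`;
* `exists_placeOver`    : every place `w` of `F/K` has a place `v` of `F'/K'` above it;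
* `dvd_ord_of_forall_dvd_ord` : if every place `v` with `ord_v (Φ h) ≠ 0` has a uniformiser in
  `Φ F`, then `n ∣ ord_v (Φ h)` for all `v` implies `n ∣ ord_w h` for all `w`
  (no theory of unramified constant field extensions is needed).

The two lemmas `exists_heightOneSpectrum_eq'`, `isPrincipalIdealRing_of_ne_top'` are copies of
lemmas of helper193 in `S27/H/ValSubring.lean` (copied to keep the import closure small).
-/
import Mathlib
import Fermat.Agent.S24.FFDeg

set_option autoImplicit false
set_option linter.style.haveILetI false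

noncomputable section

namespace Fermat.Agent.S18.Descent

open AlgebraicCurve Fermat.Agent.S24.FF IntermediateField IsDedekindDomain
open scoped IntermediateField.algebraAdjoinAdjoin

section Copy

variable {F : Type*} [Field F]
variable {B : Type*} [CommRing B] [IsDedekindDomain B] [Algebra B F] [IsFractionRing B F]

/-- A nontrivial valuation subring of the fraction field of a Dedekind domain `B` which contains
`B` is the valuation ring of a height one prime of `B`. -/
theorem exists_heightOneSpectrum_eq' (A : ValuationSubring F)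
    (hB : ∀ b : B, algebraMap B F b ∈ A) (hA : A ≠ ⊤) :
    ∃ w : HeightOneSpectrum B, (w.valuation F).valuationSubring = A := by
  let φ : B →+* A := (algebraMap B F).codRestrict A.toSubring hB
  have hinv : ∀ b : B, b ∉ (IsLocalRing.maximalIdeal A).comap φ → (algebraMap B F b)⁻¹ ∈ A := by
    intro b hnot
    rw [Ideal.mem_comap, IsLocalRing.mem_maximalIdeal, mem_nonunits_iff, not_not] at hnot
    obtain ⟨c, hc⟩ := isUnit_iff_exists_inv.mp hnot
    have hc' : algebraMap B F b * (c : F) = 1 := congrArg Subtype.val hc
    rw [← eq_inv_of_mul_eq_one_right hc']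
    exact c.2
  let w : HeightOneSpectrum B :=
    { asIdeal := (IsLocalRing.maximalIdeal A).comap φ
      isPrime := Ideal.comap_isPrime _ _
      ne_bot := by
        intro hbot
        apply hA
        refine SetLike.ext fun x => ⟨fun _ => ValuationSubring.mem_top x, fun _ => ?_⟩
        obtain ⟨a, s, hs, rfl⟩ := IsFractionRing.div_surjective (A := B) x
        rw [div_eq_mul_inv]
        refine mul_mem (hB a) (hinv s ?_)
        rw [hbot]
        simpa using nonZeroDivisors.ne_zero hs }
  refine ⟨w, ?_⟩
  rw [← HeightOneSpectrum.valuationSubringAtPrime_eq_valuationSubring]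
  refine ValuationSubring.eq_of_le_of_ne_top _ ?_ hA
  rw [HeightOneSpectrum.valuationSubringAtPrime_eq_valuationSubring]
  intro x hx
  rw [Valuation.mem_valuationSubring_iff] at hx
  obtain ⟨n, d, hnd⟩ := w.exists_primeCompl_mul_eq_of_integer x hx
  have hd : (d : B) ∉ w.asIdeal := d.2
  have hdinv : (algebraMap B F d)⁻¹ ∈ A := hinv d hd
  have hd0 : algebraMap B F d ≠ 0 := by
    intro h0
    apply hd
    have : (d : B) = 0 := by simpa using h0
    rw [this]
    exact zero_mem _
  have : x = algebraMap B F n * (algebraMap B F d)⁻¹ := by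
    rw [← hnd]; field_simp
  rw [this]
  exact mul_mem (hB n) hdinv

end Copy

section Copy2

variable {K F : Type*} [Field K] [Field F] [Algebra K F]

theorem adjoin_le_valuationSubring' (A : ValuationSubring F)
    (hK : ∀ a : K, algebraMap K F a ∈ A) {t : F} (ht : t ∈ A) :
    ∀ a ∈ Algebra.adjoin K {t}, a ∈ A := by
  intro a ha
  induction ha using Algebra.adjoin_induction with
  | mem x hx =>
    rw [Set.mem_singleton_iff] at hx
    subst hx
    exact ht
  | algebraMap r => exact hK r
  | add x y _ _ hx hy => exact add_mem hx hy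
  | mul x y _ _ hx hy => exact mul_mem hx hy

theorem mem_valuationSubring_of_isIntegral' (A : ValuationSubring F) (R : Subalgebra K F)
    (hR : ∀ a ∈ R, a ∈ A) {b : F} (hb : IsIntegral R b) : b ∈ A := by
  letI : Algebra R A :=
    ((algebraMap R F).codRestrict A.toSubring (fun a => hR a a.2)).toAlgebra
  letI : IsScalarTower R A F := IsScalarTower.of_algebraMap_eq fun f => rfl
  have hx : IsIntegral A b := hb.tower_top
  obtain ⟨y, hy⟩ := IsIntegrallyClosed.isIntegral_iff.mp hx
  exact hy ▸ y.2

/-- A nontrivial valuation subring of a function field in one variable of characteristic zero,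
containing the constants, is a discrete valuation ring.  (No hypothesis on the constant field
besides: elements outside `A` have transcendental inverse, which is automatic.) -/
theorem isPrincipalIdealRing_of_ne_top' [CharZero K] [IsFF1 K F] (A : ValuationSubring F)
    (hK : ∀ a : K, algebraMap K F a ∈ A) (hA : A ≠ ⊤) : IsPrincipalIdealRing A := by
  obtain ⟨z, hz⟩ : ∃ z : F, z ∉ A := by
    by_contra hcon
    exact hA (SetLike.ext fun x => ⟨fun _ => ValuationSubring.mem_top x,
      fun _ => by_contra fun hx => hcon ⟨x, hx⟩⟩)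
  have htA : z⁻¹ ∈ A := (A.mem_or_inv_mem z).resolve_left hz
  set t : F := z⁻¹ with ht_def
  have ht : Transcendental K t := by
    intro halg
    apply hz
    have hzalg : IsAlgebraic K z := by
      have := halg.inv
      rwa [ht_def, inv_inv] at this
    have hzint : IsIntegral K z := hzalg.isIntegral
    have : IsIntegral (⊥ : Subalgebra K F) z := hzint.tower_top
    refine mem_valuationSubring_of_isIntegral' A ⊥ ?_ this
    intro a ha
    obtain ⟨c, rfl⟩ := Algebra.mem_bot.mp ha
    exact hK c
  haveI : FiniteDimensional K⟮t⟯ F := IsFF1.finite t ht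
  haveI := isPrincipalIdealRing_adjoin t ht
  haveI : CharZero K⟮t⟯ := charZero_of_injective_algebraMap (algebraMap K K⟮t⟯).injective
  haveI : IsDedekindDomain (integralClosure (Algebra.adjoin K {t}) F) :=
    integralClosure.isDedekindDomain (Algebra.adjoin K {t}) K⟮t⟯ F
  haveI : IsFractionRing (integralClosure (Algebra.adjoin K {t}) F) F :=
    integralClosure.isFractionRing_of_finite_extension K⟮t⟯ F
  obtain ⟨w, hw⟩ := exists_heightOneSpectrum_eq' (B := integralClosure (Algebra.adjoin K {t}) F) A
    (fun b => mem_valuationSubring_of_isIntegral' A _ (adjoin_le_valuationSubring' A hK htA)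
      (b := (b : F)) b.2) hA
  rw [← hw]
  exact Place.isPrincipalIdealRing_valuationSubring w

end Copy2

section Abstract

variable {K F K' F' : Type*} [Field K] [Field F] [Field K'] [Field F']
  [Algebra K F] [Algebra K' F']

/-- The place `v` of `F'/K'` restricts, along `Φ : F → F'`, to the place `w` of `F/K`. -/
def PlaceOver (Φ : F →+* F') (v : Place K' F') (w : Place K F) : Prop :=
  ∀ f : F, Φ f ∈ v.toValuationSubring ↔ f ∈ w.toValuationSubring

theorem PlaceOver.right_unique {Φ : F →+* F'} {v : Place K' F'} {w w' : Place K F}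
    (h : PlaceOver Φ v w) (h' : PlaceOver Φ v w') : w = w' := by
  apply Place.ext
  ext f
  rw [← h f, ← h' f]

theorem PlaceOver.exists_ord_eq_mul {Φ : F →+* F'} {v : Place K' F'} {w : Place K F}
    (h : PlaceOver Φ v w) : ∃ e : ℤ, 0 < e ∧ ∀ f : F, v.ord (Φ f) = e * w.ord f := by
  obtain ⟨m, hm, hf⟩ := exists_eq_mul_ord w (fun f => v.ord (Φ f))
    (fun f g hf hg => by
      show v.ord (Φ (f * g)) = _
      rw [map_mul, v.ord_mul ((map_ne_zero _).mpr hf) ((map_ne_zero _).mpr hg)])
    (fun f _ => by
      show 0 ≤ v.ord (Φ f) ↔ _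
      rw [← h f, mem_iff_ord_nonneg])
  refine ⟨m, hm, fun f => ?_⟩
  rcases eq_or_ne f 0 with rfl | h0
  · simp
  · exact hf f h0

/-- Signs of orders are preserved. -/
theorem PlaceOver.ord_pos_iff {Φ : F →+* F'} {v : Place K' F'} {w : Place K F}
    (h : PlaceOver Φ v w) (f : F) : 0 < v.ord (Φ f) ↔ 0 < w.ord f := by
  obtain ⟨e, he, hf⟩ := h.exists_ord_eq_mul
  rw [hf]
  constructor
  · intro h1
    exact (pos_iff_pos_of_mul_pos h1).mp he
  · intro h1
    exact mul_pos he h1

theorem PlaceOver.ord_le {Φ : F →+* F'} {v : Place K' F'} {w : Place K F}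
    (h : PlaceOver Φ v w) {f : F} (hf : 0 ≤ w.ord f) : w.ord f ≤ v.ord (Φ f) := by
  obtain ⟨e, he, hf'⟩ := h.exists_ord_eq_mul
  rw [hf']
  nlinarith

/-- If `Φ F` contains a uniformiser at `v`, then `v` is unramified over `w`. -/
theorem PlaceOver.ord_eq_of_ord_eq_one {Φ : F →+* F'} {v : Place K' F'} {w : Place K F}
    (h : PlaceOver Φ v w) {t : F} (ht : v.ord (Φ t) = 1) (f : F) : v.ord (Φ f) = w.ord f := by
  obtain ⟨e, he, hf⟩ := h.exists_ord_eq_mul
  have h1 : e * w.ord t = 1 := by rw [← hf, ht]
  have h2 : e = 1 := by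
    have : e ∣ 1 := ⟨_, h1.symm⟩
    exact Int.eq_one_of_dvd_one he.le this
  rw [hf, h2, one_mul]

variable (φ : K →+* K') (Φ : F →+* F')

/-- Every place of `F/K` extends to a place of `F'/K'`, when `K'` is integral over `K`. -/
theorem exists_placeOver [CharZero K'] [IsFF1 K' F']
    (hcomp : ∀ a : K, Φ (algebraMap K F a) = algebraMap K' F' (φ a))
    (hint : φ.IsIntegral) (w : Place K F) : ∃ v : Place K' F', PlaceOver Φ v w := by
  -- the image of `O_w` in `F'` is a local subring
  let R : Subring F' := w.toValuationSubring.toSubring.map Φ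
  let I : Ideal R := Ideal.span {a : R | ∃ f ∈ w.toValuationSubring.nonunits, Φ f = (a : F')}
  have hI : ∀ a ∈ I, ∃ f ∈ w.toValuationSubring.nonunits, Φ f = (a : F') := by
    intro a ha
    induction ha using Submodule.span_induction with
    | mem y hy => exact hy
    | zero => exact ⟨0, zero_mem _, by simp⟩
    | add y z _ _ hy hz =>
      obtain ⟨f, hf, hfy⟩ := hy
      obtain ⟨g, hg, hgz⟩ := hz
      exact ⟨f + g, add_mem hf hg, by simp [hfy, hgz]⟩
    | smul c y _ hy =>
      obtain ⟨f, hf, hfy⟩ := hy
      obtain ⟨g, hg, hgc⟩ := c.2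
      refine ⟨g * f, ?_, by simp [hfy, hgc]⟩
      have hf' : w.toValuationSubring.valuation f < 1 :=
        (ValuationSubring.mem_nonunits_iff _).mp hf
      have hg' : w.toValuationSubring.valuation g ≤ 1 :=
        (ValuationSubring.valuation_le_one_iff _ _).mpr hg
      rw [ValuationSubring.mem_nonunits_iff, map_mul]
      exact lt_of_le_of_lt (mul_le_of_le_one_left' hg') hf'
  have hItop : I ≠ ⊤ := by
    intro h
    obtain ⟨f, hf, hf1⟩ := hI 1 (h ▸ Submodule.mem_top)
    have : f = 1 := Φ.injective (by simpa using hf1)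
    subst this
    rw [ValuationSubring.mem_nonunits_iff, map_one] at hf
    exact lt_irrefl _ hf
  obtain ⟨B, hRB, hIB⟩ := Ideal.image_subset_nonunits_valuationSubring I hItop
  have hO : ∀ f : F, f ∈ w.toValuationSubring → Φ f ∈ B := fun f hf => hRB ⟨f, hf, rfl⟩
  have hm : ∀ f : F, f ∈ w.toValuationSubring.nonunits → Φ f ∈ B.nonunits := by
    intro f hf
    have hfR : Φ f ∈ R := ⟨f, ValuationSubring.nonunits_subset hf, rfl⟩
    exact hIB ⟨⟨_, hfR⟩, Ideal.subset_span ⟨f, hf, rfl⟩, rfl⟩
  have key : ∀ f : F, f ∉ w.toValuationSubring → Φ f ∉ B := by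
    intro f hf
    have h1 : f⁻¹ ∈ w.toValuationSubring.nonunits :=
      (ValuationSubring.inv_mem_nonunits_iff _).mpr (Or.inr hf)
    have h2 := hm _ h1
    rw [map_inv₀, ValuationSubring.inv_mem_nonunits_iff] at h2
    rcases h2 with h2 | h2
    · exfalso
      apply hf
      rw [(map_eq_zero _).mp h2]
      exact zero_mem _
    · exact h2
  have hB : B ≠ ⊤ := by
    intro h
    apply w.ne_top'
    refine SetLike.ext fun f => ⟨fun _ => ValuationSubring.mem_top f, fun _ => ?_⟩
    by_contra hf
    exact key f hf (h ▸ ValuationSubring.mem_top _)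
  -- `B` contains `K'` since it is integrally closed
  have hK : ∀ c : K', algebraMap K' F' c ∈ B := by
    intro c
    obtain ⟨p, hp, hpc⟩ := hint c
    -- `algebraMap c` is integral over `B`
    let ψ : K →+* B := ((algebraMap K' F').comp φ).codRestrict B.toSubring (fun a => by
      show algebraMap K' F' (φ a) ∈ B
      rw [← hcomp]
      exact hO _ (w.algebraMap_mem' a))
    have hint' : IsIntegral B (algebraMap K' F' c) := by
      refine ⟨p.map ψ, hp.map _, ?_⟩
      rw [Polynomial.eval₂_map]
      have : (algebraMap B F').comp ψ = (algebraMap K' F').comp φ := by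
        ext a; rfl
      rw [this, ← Polynomial.hom_eval₂, hpc, map_zero]
    obtain ⟨y, hy⟩ := IsIntegrallyClosed.isIntegral_iff.mp hint'
    exact hy ▸ y.2
  refine ⟨⟨B, hK, hB, isPrincipalIdealRing_of_ne_top' B hK hB⟩, fun f => ⟨fun h => ?_, hO f⟩⟩
  by_contra hf
  exact key f hf h

/-- **Descent of divisibility of divisors.**  If every place `v` of `F'/K'` in the support of
`Φ h` has a uniformiser coming from `F`, then divisibility by `n` of all `ord_v (Φ h)` implies
divisibility by `n` of all `ord_w h`. -/
theorem dvd_ord_of_forall_dvd_ord [CharZero K'] [IsFF1 K' F']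
    (hcomp : ∀ a : K, Φ (algebraMap K F a) = algebraMap K' F' (φ a))
    (hint : φ.IsIntegral) (h : F) (n : ℤ)
    (hunif : ∀ v : Place K' F', v.ord (Φ h) ≠ 0 → ∃ t : F, v.ord (Φ t) = 1)
    (hdvd : ∀ v : Place K' F', n ∣ v.ord (Φ h)) (w : Place K F) : n ∣ w.ord h := by
  obtain ⟨v, hv⟩ := exists_placeOver φ Φ hcomp hint w
  by_cases h0 : v.ord (Φ h) = 0
  · obtain ⟨e, he, hf⟩ := hv.exists_ord_eq_mul
    rw [hf] at h0
    rcases mul_eq_zero.mp h0 with h1 | h1
    · omega
    · rw [h1]; exact dvd_zero _
  · obtain ⟨t, ht⟩ := hunif v h0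
    rw [← hv.ord_eq_of_ord_eq_one ht]
    exact hdvd v

end Abstract

end Fermat.Agent.S18.Descent
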