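/-
KL-A, DESCENT, horizontal inputs (2): `laurentBaseChange L F₀` is a function field in one variable
over `L` as soon as `laurentBaseChange L' F₀` is one over an extension `L'` of `L` (and `F₀` is
finitely generated over `ℚ`).  In particular `F_{K₀}` is finite over `K₀(x)` for every
transcendental `x` (`x = j, h₂, h₃, ...`), for every subfield `K₀` of `ℚ̄`.
Owner: helper248.
-/
import Mathlib
import Fermat.Prelude.Def_ModularCurve_ArithmeticGalois
import Fermat.Agent.S24.FFDeg
import Fermat.Agent.S18.Descent.Union
import Fermat.Agent.S18.Descent.Indep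

set_option autoImplicit false
set_option linter.style.haveILetI false

noncomputable section

namespace Fermat.Agent.S18.Descent

open ModularCurve IntermediateField Fermat.Agent.S24.FF

section Abstract

variable {K F : Type*} [Field K] [Field F] [Algebra K F]

/-- A finitely generated field extension of transcendence degree `≤ 1` is a function field in one
variable. -/
theorem isFF1_of_trdeg_le_one (htr : Algebra.trdeg K F ≤ 1) (hfg : Algebra.EssFiniteType K F) :
    IsFF1 K F := by
  constructor
  intro y hy
  have hind : AlgebraicIndependent K (fun _ : PUnit => y) :=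
    algebraicIndependent_unique_type_iff.mpr hy
  have hb : IsTranscendenceBasis K (fun _ : PUnit => y) :=
    hind.isTranscendenceBasis_of_trdeg_le_of_finite (by simpa using htr)
  have h1 := hb.isAlgebraic_field
  have hr : Set.range (fun _ : PUnit => y) = {y} := by
    ext z; simp [eq_comm]
  rw [hr] at h1
  have e3 : Algebra.EssFiniteType K⟮y⟯ F := Algebra.EssFiniteType.of_comp K K⟮y⟯ F
  exact Algebra.finite_of_essFiniteType_of_isAlgebraic

open scoped IntermediateField.algebraAdjoinAdjoin in
theorem trdeg_le_one_of_isFF1 [IsFF1 K F] : Algebra.trdeg K F ≤ 1 := by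
  by_cases h : ∃ x : F, Transcendental K x
  · obtain ⟨x, hx⟩ := h
    haveI := IsFF1.finite x hx
    have halg : Algebra.IsAlgebraic (Algebra.adjoin K {x}) F :=
      Algebra.IsAlgebraic.trans (Algebra.adjoin K {x}) K⟮x⟯ F
    have := Algebra.IsAlgebraic.trdeg_le_cardinalMk K ({x} : Set F)
    simpa using this
  · haveI : Algebra.IsAlgebraic K F := ⟨fun x => by
      by_contra hx
      exact h ⟨x, hx⟩⟩
    rw [trdeg_eq_zero]
    exact zero_le_one

end Abstract

section BaseChange

universe u v

variable {L : Type u} {L' : Type v} [Field L] [Field L'] [Algebra ℚ L] [Algebra ℚ L']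
  [Algebra L L']
variable (F₀ : IntermediateField ℚ (LaurentSeries ℚ))

/-- Algebraic independence is preserved by `baseChangeMap`. -/
theorem algebraicIndependent_baseChangeMap {ι : Type*} {m : ι → laurentBaseChange L F₀}
    (h : AlgebraicIndependent L m) :
    AlgebraicIndependent L' (fun i => baseChangeMap F₀ (algebraMap L L') (m i)) := by
  have h1 : AlgebraicIndependent L (fun i => ((m i : laurentBaseChange L F₀) : LaurentSeries L)) :=
    h.map' (f := (laurentBaseChange L F₀).val) Subtype.val_injective
  have h2 := algebraicIndependent_coeffMap (L' := L') h1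
  exact AlgebraicIndependent.of_comp (laurentBaseChange L' F₀).val h2

theorem transcendental_baseChangeMap {x : laurentBaseChange L F₀} (hx : Transcendental L x) :
    Transcendental L' (baseChangeMap F₀ (algebraMap L L') x) := by
  have h1 : AlgebraicIndependent L (fun _ : Unit => x) :=
    algebraicIndependent_unique_type_iff.mpr hx
  exact algebraicIndependent_unique_type_iff.mp (algebraicIndependent_baseChangeMap F₀ h1)

theorem trdeg_le_one_of_baseChange
    (h : Algebra.trdeg L' (laurentBaseChange L' F₀) ≤ 1) :
    Algebra.trdeg L (laurentBaseChange L F₀) ≤ 1 := by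
  haveI : FaithfulSMul L (laurentBaseChange L F₀) :=
    (faithfulSMul_iff_algebraMap_injective _ _).mpr (algebraMap L (laurentBaseChange L F₀)).injective
  obtain ⟨s, hs⟩ := exists_isTranscendenceBasis L (laurentBaseChange L F₀)
  rw [← hs.cardinalMk_eq_trdeg]
  have h1 := (algebraicIndependent_baseChangeMap (L' := L') F₀ hs.1).lift_cardinalMk_le_trdeg
  have h2 : Cardinal.lift.{v} (Cardinal.mk s) ≤ Cardinal.lift.{v} (1 : Cardinal.{u}) := by
    refine h1.trans ?_
    rw [Cardinal.lift_one, ← Cardinal.lift_one.{v, u}, Cardinal.lift_le]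
    exact h
  exact Cardinal.lift_le.mp h2

variable {F₀}

theorem coeffEmb_algebraMap' (r : ℚ) :
    coeffEmb L (algebraMap ℚ (LaurentSeries ℚ) r) =
      algebraMap L (LaurentSeries L) (algebraMap ℚ L r) := by
  rw [algebraMap_laurentSeries_eq_single, algebraMap_laurentSeries_eq_single, coeffEmb,
    coeffMap_single]

/-- Generators of `F₀` over `ℚ` generate `laurentBaseChange L F₀` over `L`. -/
theorem laurentBaseChange_eq_adjoin {S : Set (LaurentSeries ℚ)}
    (hS : F₀ = IntermediateField.adjoin ℚ S) :
    laurentBaseChange L F₀ = IntermediateField.adjoin L (⇑(coeffEmb L) '' S) := by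
  apply le_antisymm
  · rw [laurentBaseChange, IntermediateField.adjoin_le_iff]
    rintro _ ⟨x, hx, rfl⟩
    have hx' : x ∈ IntermediateField.adjoin ℚ S := hS ▸ hx
    induction hx' using IntermediateField.adjoin_induction with
    | mem y hy => exact IntermediateField.subset_adjoin L _ ⟨y, hy, rfl⟩
    | algebraMap r =>
      rw [coeffEmb_algebraMap']
      exact IntermediateField.algebraMap_mem _ _
    | add y z hy' hz' hy hz =>
      rw [map_add]
      exact add_mem (hy (hS ▸ hy')) (hz (hS ▸ hz'))
    | inv y hy' hy =>
      rw [map_inv₀]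
      exact inv_mem (hy (hS ▸ hy'))
    | mul y z hy' hz' hy hz =>
      rw [map_mul]
      exact mul_mem (hy (hS ▸ hy')) (hz (hS ▸ hz'))
  · rw [laurentBaseChange]
    apply IntermediateField.adjoin.mono
    apply Set.image_mono
    rw [hS]
    exact IntermediateField.subset_adjoin ℚ S

theorem essFiniteType_laurentBaseChange {S : Set (LaurentSeries ℚ)} (hfin : S.Finite)
    (hS : F₀ = IntermediateField.adjoin ℚ S) :
    Algebra.EssFiniteType L (laurentBaseChange L F₀) := by
  classical
  rw [IntermediateField.essFiniteType_iff, laurentBaseChange_eq_adjoin hS]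
  have h := IntermediateField.fg_adjoin_finset (F := L) ((hfin.image (coeffEmb L)).toFinset)
  rwa [Set.Finite.coe_toFinset] at h

/-- **Descent of `IsFF1`.** -/
theorem isFF1_of_baseChange {S : Set (LaurentSeries ℚ)} (hfin : S.Finite)
    (hS : F₀ = IntermediateField.adjoin ℚ S) [IsFF1 L' (laurentBaseChange L' F₀)] :
    IsFF1 L (laurentBaseChange L F₀) :=
  isFF1_of_trdeg_le_one (trdeg_le_one_of_baseChange (L' := L') F₀ trdeg_le_one_of_isFF1)
    (essFiniteType_laurentBaseChange hfin hS)

end BaseChange

section Modular

theorem finite_divisorExpansions (N : ℕ) [NeZero N] : (divisorExpansions N).Finite := by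
  classical
  have hsub : divisorExpansions N ⊆ Set.range (fun d : N.divisors =>
      haveI : NeZero (d : ℕ) := ⟨(Nat.pos_of_mem_divisors d.2).ne'⟩
      qExpand ℚ d jq) := by
    rintro _ ⟨d, hne, hd, rfl⟩
    exact ⟨⟨d, Nat.mem_divisors.mpr ⟨hd, NeZero.ne N⟩⟩, rfl⟩
  exact (Set.finite_range _).subset hsub

/-- The function field of `X₀(N)` over a subfield `K₀` of `ℚ̄` is a function field in one
variable. -/
theorem isFF1_modular (N : ℕ) [NeZero N]
    [IsFF1 (AlgebraicClosure ℚ) (modularFunctionFieldBar N)]
    (K₀ : IntermediateField ℚ (AlgebraicClosure ℚ)) :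
    IsFF1 K₀ (laurentBaseChange K₀ (modularFunctionFieldFull N)) :=
  haveI : IsFF1 (AlgebraicClosure ℚ)
      (laurentBaseChange (AlgebraicClosure ℚ) (modularFunctionFieldFull N)) :=
    ‹IsFF1 (AlgebraicClosure ℚ) (modularFunctionFieldBar N)›
  isFF1_of_baseChange (L' := AlgebraicClosure ℚ) (finite_divisorExpansions N) rfl

end Modular

end Fermat.Agent.S18.Descent
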