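/-
KL-A, DESCENT, horizontal inputs (3): transfer of "unramified outside `g`" and of "the divisor is
divisible by `m`" from places of `F'/K'` (`K'` algebraically closed) to valuation subrings of
`F/K` (`K'/K` algebraic), in the shapes consumed by `Lib/GoodRed` (helper160) and `S18/Abs`
(helper128).
Owner: helper248.
-/
import Mathlib
import Fermat.Agent.Lib.GoodRed.Defs
import Fermat.Agent.S18.Descent.Places

set_option autoImplicit false
set_option linter.style.haveILetI false

noncomputable section

namespace Fermat.Agent.S18.Descent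

open AlgebraicCurve Fermat.Agent.S24.FF Polynomial

section OnePlace

variable {K F : Type*} [Field K] [Field F] [Algebra K F] (v : Place K F)

theorem ord_aeval_nonneg {x : F} (hx : 0 ≤ v.ord x) (P : K[X]) : 0 ≤ v.ord (aeval x P) := by
  apply ord_nonneg_of_mem
  have hx' := mem_of_ord_nonneg v hx
  rw [aeval_eq_sum_range]
  refine sum_mem fun i _ => ?_
  rw [Algebra.smul_def]
  exact mul_mem (v.algebraMap_mem' _) (pow_mem hx' i)

theorem ord_nonneg_of_ord_sub_pos {x : F} {c : K} (h : 0 < v.ord (x - algebraMap K F c)) :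
    0 ≤ v.ord x := by
  apply ord_nonneg_of_mem
  have h1 := mem_of_ord_nonneg v h.le
  have h2 := add_mem h1 (v.algebraMap_mem' c)
  rwa [sub_add_cancel] at h2

theorem aeval_eq_sub_mul_add (x : F) (c : K) (P : K[X]) :
    aeval x P = (x - algebraMap K F c) * aeval x (P /ₘ (X - C c)) + algebraMap K F (P.eval c) := by
  have h := congrArg (aeval x) (modByMonic_add_div P (X - C c))
  rw [modByMonic_X_sub_C_eq_C_eval] at h
  simp only [map_add, map_mul, map_sub, aeval_X, aeval_C] at h
  rw [← h]; ring

/-- If `x ≡ c` at `v` and `P(c) ≠ 0`, then `P(x)` is a unit at `v`. -/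
theorem ord_aeval_eq_zero_of_eval_ne_zero {x : F} {c : K}
    (h : 0 < v.ord (x - algebraMap K F c)) {P : K[X]} (hP : P.eval c ≠ 0) :
    aeval x P ≠ 0 ∧ v.ord (aeval x P) = 0 := by
  have hx := ord_nonneg_of_ord_sub_pos v h
  have hc0 : algebraMap K F (P.eval c) ≠ 0 := by simpa using hP
  rw [aeval_eq_sub_mul_add x c P]
  set R := aeval x (P /ₘ (X - C c)) with hR
  rcases eq_or_ne R 0 with h0 | h0
  · rw [h0, mul_zero, zero_add]
    exact ⟨hc0, ord_algebraMap v _⟩
  · have hne : x - algebraMap K F c ≠ 0 := ne_zero_of_ord_ne_zero v h.ne'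
    have h1 : v.ord (algebraMap K F (P.eval c)) < v.ord ((x - algebraMap K F c) * R) := by
      rw [ord_algebraMap, v.ord_mul hne h0]
      have := ord_aeval_nonneg v hx (P /ₘ (X - C c))
      rw [← hR] at this
      omega
    have h2 := ord_add_eq_of_lt v hc0 h1
    rw [add_comm] at h2
    rw [h2, ord_algebraMap]
    refine ⟨?_, rfl⟩
    intro hz
    -- the sum cannot vanish: orders differ
    have h3 : (x - algebraMap K F c) * R = - algebraMap K F (P.eval c) := by
      linear_combination hz
    rw [h3, ord_neg] at h1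
    exact lt_irrefl _ h1

/-- If `x ≡ c` at `v` and `P(c) = 0`, then `P(x)` is zero or a non-unit at `v`. -/
theorem ord_aeval_pos_of_eval_eq_zero {x : F} {c : K}
    (h : 0 < v.ord (x - algebraMap K F c)) {P : K[X]} (hP : P.eval c = 0)
    (h0 : aeval x P ≠ 0) : 0 < v.ord (aeval x P) := by
  have hx := ord_nonneg_of_ord_sub_pos v h
  rw [aeval_eq_sub_mul_add x c P, hP, map_zero, add_zero] at h0 ⊢
  have hne : x - algebraMap K F c ≠ 0 := left_ne_zero_of_mul h0
  have hR : aeval x (P /ₘ (X - C c)) ≠ 0 := right_ne_zero_of_mul h0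
  rw [v.ord_mul hne hR]
  have := ord_aeval_nonneg v hx (P /ₘ (X - C c))
  omega

/-- If `x ≡ c` at `v` and `c` is a simple root of `P`, then `ord_v P(x) = ord_v (x - c)`. -/
theorem ord_aeval_of_simple_root {x : F} {c : K}
    (h : 0 < v.ord (x - algebraMap K F c)) {P : K[X]} (hP : P.eval c = 0)
    (hP' : (derivative P).eval c ≠ 0) : v.ord (aeval x P) = v.ord (x - algebraMap K F c) := by
  have hroot : (X - C c) * (P /ₘ (X - C c)) = P := mul_divByMonic_eq_iff_isRoot.mpr hP
  have hR : (P /ₘ (X - C c)).eval c ≠ 0 := by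
    intro h0
    apply hP'
    rw [← hroot, derivative_mul]
    simp [h0]
  obtain ⟨hR0, hR1⟩ := ord_aeval_eq_zero_of_eval_ne_zero v h hR
  have hne : x - algebraMap K F c ≠ 0 := ne_zero_of_ord_ne_zero v h.ne'
  rw [aeval_eq_sub_mul_add x c P, hP, map_zero, add_zero, v.ord_mul hne hR0, hR1, add_zero]

end OnePlace

section Transfer

variable {K F K' F' : Type*} [Field K] [Field F] [Field K'] [Field F']
  [Algebra K F] [Algebra K' F'] [Algebra K K']

theorem map_aeval_eq (Φ : F →+* F')
    (hcomp : ∀ a : K, Φ (algebraMap K F a) = algebraMap K' F' (algebraMap K K' a)) (x : F)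
    (p : K[X]) : Φ (aeval x p) = aeval (Φ x) (p.map (algebraMap K K')) := by
  rw [aeval_def, aeval_def, hom_eval₂, eval₂_map]
  congr 1
  ext a
  exact hcomp a

variable [Algebra.IsIntegral K K'] [IsAlgClosed K'] [CharZero K'] [IsFF1 K' F']

/-- **Transfer of unramifiedness** (place form).  Suppose that over the algebraically closed field
`K'` every place over `x = c`, `g(c) ≠ 0`, is unramified over the `x`-line.  Then at every place
`w` of `F/K` at which `x` is finite and `g(x)` is a unit, some polynomial in `x` is a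
uniformiser. -/
theorem exists_poly_ord_eq_one (Φ : F →+* F')
    (hcomp : ∀ a : K, Φ (algebraMap K F a) = algebraMap K' F' (algebraMap K K' a))
    (x : F) (hxc : ∀ c : K', Φ x ≠ algebraMap K' F' c) (g : K[X])
    (hQ : ∀ c : K', (g.map (algebraMap K K')).eval c ≠ 0 → ∀ v : Place K' F',
      0 < v.ord (Φ x - algebraMap K' F' c) → v.ord (Φ x - algebraMap K' F' c) = 1)
    (w : Place K F) (hx : 0 ≤ w.ord x) (hg0 : aeval x g ≠ 0) (hg : w.ord (aeval x g) = 0) :
    ∃ p : K[X], w.ord (aeval x p) = 1 := by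
  haveI : CharZero K :=
    ((algebraMap K K').charZero_iff (algebraMap K K').injective).mpr inferInstance
  obtain ⟨v, hv⟩ := exists_placeOver (algebraMap K K') Φ hcomp
    (fun c => Algebra.IsIntegral.isIntegral c) w
  obtain ⟨e, he, hord⟩ := hv.exists_ord_eq_mul
  have hx' : 0 ≤ v.ord (Φ x) := by
    rw [hord]; positivity
  obtain ⟨c, hc⟩ := exists_const_of_ord_nonneg v hx'
  have hc : 0 < v.ord (Φ x - algebraMap K' F' c) := hc.resolve_left (hxc c)
  -- `g(c) ≠ 0`
  have hgc : (g.map (algebraMap K K')).eval c ≠ 0 := by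
    intro h0
    have h1 : aeval (Φ x) (g.map (algebraMap K K')) ≠ 0 := by
      rw [← map_aeval_eq Φ hcomp]
      exact (map_ne_zero Φ).mpr hg0
    have h2 := ord_aeval_pos_of_eval_eq_zero v hc h0 h1
    rw [← map_aeval_eq Φ hcomp, hord, hg, mul_zero] at h2
    exact lt_irrefl _ h2
  have h1 := hQ c hgc v hc
  -- the minimal polynomial of `c`
  have hcint : IsIntegral K c := Algebra.IsIntegral.isIntegral c
  set p := minpoly K c with hp
  have hsep : p.Separable := (minpoly.irreducible hcint).separable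
  have hpc : (p.map (algebraMap K K')).eval c = 0 := by
    rw [eval_map_algebraMap, hp, minpoly.aeval]
  have hpc' : (derivative (p.map (algebraMap K K'))).eval c ≠ 0 := by
    rw [derivative_map, eval_map_algebraMap]
    exact hsep.aeval_derivative_ne_zero (minpoly.aeval K c)
  have h2 := ord_aeval_of_simple_root v hc hpc hpc'
  rw [← map_aeval_eq Φ hcomp, hord, h1] at h2
  refine ⟨p, ?_⟩
  have h3 : e ∣ 1 := ⟨_, h2.symm⟩
  have h4 : e = 1 := Int.eq_one_of_dvd_one he.le h3
  rw [h4, one_mul] at h2
  exact h2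

end Transfer

section ValuationSubring

variable {K F : Type*} [Field K] [Field F] [Algebra K F] [CharZero K] [IsFF1 K F]

/-- The place attached to a nontrivial valuation subring containing the constants. -/
def placeOfVS (V : ValuationSubring F) (hK : ∀ a : K, algebraMap K F a ∈ V) (hV : V ≠ ⊤) :
    Place K F :=
  ⟨V, hK, hV, isPrincipalIdealRing_of_ne_top' V hK hV⟩

@[simp]
theorem placeOfVS_toValuationSubring (V : ValuationSubring F)
    (hK : ∀ a : K, algebraMap K F a ∈ V) (hV : V ≠ ⊤) :
    (placeOfVS V hK hV).toValuationSubring = V := rfl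

omit [CharZero K] [IsFF1 K F] in
/-- An element of order one generates the maximal ideal. -/
theorem generates_of_ord_eq_one (w : Place K F) {π : F} (hπ : w.ord π = 1) :
    π ∈ w.toValuationSubring ∧ π⁻¹ ∉ w.toValuationSubring ∧
      ∀ y ∈ w.toValuationSubring, y⁻¹ ∉ w.toValuationSubring → y / π ∈ w.toValuationSubring := by
  have hπ0 : π ≠ 0 := ne_zero_of_ord_ne_zero w (by omega)
  refine ⟨mem_of_ord_nonneg w (by omega), ?_, ?_⟩
  · intro h
    have := ord_nonneg_of_mem w h
    rw [w.ord_inv] at this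
    omega
  · intro y hy hy'
    have hy0 : y ≠ 0 := by
      rintro rfl
      exact hy' (by simp [zero_mem])
    have h1 := ord_nonneg_of_mem w hy
    have h2 : ¬ 0 ≤ w.ord y⁻¹ := fun h => hy' (mem_of_ord_nonneg w h)
    rw [w.ord_inv] at h2
    apply mem_of_ord_nonneg
    rw [div_eq_mul_inv, w.ord_mul hy0 (inv_ne_zero hπ0), w.ord_inv]
    omega

/-- "Unramified outside `g` over the `x`-line", for valuation subrings of `F` containing `K`
(instance-free form of `GoodRed.UnramOutside`, without the intermediate field `E = K(x)`). -/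
def UnramOutsideVS (K : Type*) {F : Type*} [Field K] [Field F] [Algebra K F] (x : F) (g : K[X]) :
    Prop :=
  ∀ V : ValuationSubring F, (∀ a : K, algebraMap K F a ∈ V) → V ≠ ⊤ → x ∈ V →
    (aeval x g)⁻¹ ∈ V →
    ∃ p : K[X], aeval x p ∈ V ∧ (aeval x p)⁻¹ ∉ V ∧ ∀ y ∈ V, y⁻¹ ∉ V → y / aeval x p ∈ V

/-- "The divisor of `h` is divisible by `m`", for valuation subrings of `F` containing `K`. -/
def DivisibleDivVS (K : Type*) {F : Type*} [Field K] [Field F] [Algebra K F] (m : ℕ) (h : F) :
    Prop :=
  ∀ V : ValuationSubring F, (∀ a : K, algebraMap K F a ∈ V) →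
    ∃ t : F, t ≠ 0 ∧ h * t ^ m ∈ V ∧ (h * t ^ m)⁻¹ ∈ V

theorem unramOutsideVS_of_places (x : F) (g : K[X])
    (H : ∀ w : Place K F, 0 ≤ w.ord x → w.ord (aeval x g) = 0 →
      ∃ p : K[X], w.ord (aeval x p) = 1) : UnramOutsideVS K x g := by
  intro V hK hV hx hg
  let w := placeOfVS V hK hV
  have hx' : 0 ≤ w.ord x := ord_nonneg_of_mem w hx
  have h1 : 0 ≤ w.ord (aeval x g) := ord_aeval_nonneg w hx' g
  have h2 : 0 ≤ w.ord (aeval x g)⁻¹ := ord_nonneg_of_mem w hg
  rw [w.ord_inv] at h2
  obtain ⟨p, hp⟩ := H w hx' (by omega)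
  exact ⟨p, generates_of_ord_eq_one w hp⟩

theorem divisibleDivVS_of_places (m : ℕ) (h : F) (hh : h ≠ 0)
    (H : ∀ w : Place K F, (m : ℤ) ∣ w.ord h) : DivisibleDivVS K m h := by
  intro V hK
  by_cases hV : V = ⊤
  · subst hV
    exact ⟨1, one_ne_zero, ValuationSubring.mem_top _, ValuationSubring.mem_top _⟩
  · let w := placeOfVS V hK hV
    obtain ⟨k, hk⟩ := H w
    obtain ⟨π, hπ⟩ := exists_ord_eq_one w
    have hπ0 : π ≠ 0 := ne_zero_of_ord_ne_zero w (by omega)
    have ht0 : π ^ (-k) ≠ 0 := zpow_ne_zero _ hπ0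
    have hord : w.ord (h * (π ^ (-k)) ^ m) = 0 := by
      rw [w.ord_mul hh (pow_ne_zero _ ht0), ord_pow, w.ord_zpow, hπ, hk]
      ring
    refine ⟨π ^ (-k), ht0, mem_of_ord_nonneg w hord.ge, mem_of_ord_nonneg w ?_⟩
    rw [w.ord_inv, hord]
    simp

end ValuationSubring

section GoodRedShapes

open Fermat.Agent.GoodRed

variable {K E F : Type*} [Field K] [Field E] [Field F] [Algebra K E] [Algebra E F] [Algebra K F]
  [IsScalarTower K E F]

theorem unramOutside_of_VS (x : E) (g : K[X]) (H : UnramOutsideVS K (algebraMap E F x) g) :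
    UnramOutside K F x g := by
  intro V hK hV hx hg
  have hK' : ∀ a : K, algebraMap K F a ∈ V := fun a => by
    rw [IsScalarTower.algebraMap_apply K E F]; exact hK a
  rw [← aeval_algebraMap_apply] at hg
  obtain ⟨p, hp⟩ := H V hK' hV hx hg
  refine ⟨p, ?_⟩
  rw [← aeval_algebraMap_apply]
  exact hp

theorem divisibleDiv_of_VS (m : ℕ) (h : F) (H : DivisibleDivVS K m h) :
    DivisibleDiv K E m h := by
  intro V hK
  exact H V fun a => by
    rw [IsScalarTower.algebraMap_apply K E F]; exact hK a

end GoodRedShapes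

section Simple

open Fermat.Agent.GoodRed IntermediateField

variable {K F : Type*} [Field K] [Field F] [Algebra K F] (x : F)

/-- `E = K(x)` is generated by `x`. -/
theorem adjoin_gen_eq_top :
    IntermediateField.adjoin K {AdjoinSimple.gen K x} = (⊤ : IntermediateField K K⟮x⟯) := by
  rw [eq_top_iff]
  intro y _
  obtain ⟨r, s, hrs⟩ := (IntermediateField.mem_adjoin_simple_iff K (y : F)).mp y.2
  have hy : y = aeval (AdjoinSimple.gen K x) r / aeval (AdjoinSimple.gen K x) s := by
    apply Subtype.ext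
    rw [hrs]
    have h : ∀ p : K[X], ((aeval (AdjoinSimple.gen K x) p : K⟮x⟯) : F) = aeval x p := fun p => by
      have := aeval_algebraMap_apply F (AdjoinSimple.gen K x) p
      rw [AdjoinSimple.algebraMap_gen] at this
      exact this.symm
    rw [IntermediateField.coe_div, h, h]
  rw [hy]
  have hmem : ∀ p : K[X], aeval (AdjoinSimple.gen K x) p ∈
      IntermediateField.adjoin K {AdjoinSimple.gen K x} := fun p => by
    rw [aeval_eq_sum_range]
    refine sum_mem fun i _ => ?_
    rw [Algebra.smul_def]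
    exact mul_mem (IntermediateField.algebraMap_mem _ _)
      (pow_mem (mem_adjoin_simple_self K _) i)
  exact div_mem (hmem r) (hmem s)

variable {x} in
theorem transcendental_gen (hx : Transcendental K x) :
    Transcendental K (AdjoinSimple.gen K x) := by
  intro halg
  apply hx
  have := halg.algebraMap (A := F)
  rwa [AdjoinSimple.algebraMap_gen] at this

theorem unramOutside_gen (g : K[X]) (H : UnramOutsideVS K x g) :
    UnramOutside K F (AdjoinSimple.gen K x) g :=
  unramOutside_of_VS _ g (by rwa [AdjoinSimple.algebraMap_gen])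

theorem unramOutside_gen_inv (g : K[X]) (H : UnramOutsideVS K x⁻¹ g) :
    UnramOutside K F (AdjoinSimple.gen K x)⁻¹ g :=
  unramOutside_of_VS _ g (by rwa [map_inv₀, AdjoinSimple.algebraMap_gen])

end Simple

end Fermat.Agent.S18.Descent
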