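/-
KL-A, node (5) DESCENT, part (5b): the trace `A₀ = A ∩ K₀` of a valuation subring `A` of `ℚ̄`
(or of any field `Ω`) on a number field `K₀ ⊆ Ω` is a discrete valuation ring.
Owner: helper248.

* `isDiscreteValuationRing_of_numberField` : a nontrivial valuation subring of a number field
  is a DVR;
* `restrict A K₀ : ValuationSubring K₀`, `restrictHom A K₀ : restrict A K₀ →+* A` (local,
  injective), `residueMap A K₀` (the injection of residue fields);
* `restrict_liesOverPrime`, `isDiscreteValuationRing_restrict`;
* `liftSeries`, `exists_series_restrict` : a Laurent series over `K₀` whose image over `Ω` has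
  coefficients in `A` has coefficients in `A₀`.
-/
import Mathlib
import Fermat.Prelude.Def_FLTPrelim_Ramification
import Fermat.Prelude.Def_ModularCurve_LaurentCoeff
import Fermat.Agent.S18.Descent.Places

set_option autoImplicit false
set_option linter.style.haveILetI false

noncomputable section

namespace Fermat.Agent.S18.Descent

open AlgebraicCurve ModularCurve IsDedekindDomain

/-- A nontrivial valuation subring of a number field is a discrete valuation ring. -/
theorem isDiscreteValuationRing_of_numberField {K : Type*} [Field K] [NumberField K]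
    (V : ValuationSubring K) (hV : V ≠ ⊤) : IsDiscreteValuationRing V := by
  have hB : ∀ b : NumberField.RingOfIntegers K, algebraMap _ K b ∈ V := by
    intro b
    have hb : IsIntegral ℤ (algebraMap (NumberField.RingOfIntegers K) K b) :=
      NumberField.RingOfIntegers.isIntegral_coe b
    have hb' : IsIntegral V (algebraMap (NumberField.RingOfIntegers K) K b) := hb.tower_top
    obtain ⟨y, hy⟩ := IsIntegrallyClosed.isIntegral_iff.mp hb'
    exact hy ▸ y.2
  obtain ⟨w, hw⟩ := exists_heightOneSpectrum_eq' (B := NumberField.RingOfIntegers K) V hB hV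
  haveI : IsPrincipalIdealRing V := hw ▸ Place.isPrincipalIdealRing_valuationSubring w
  exact { not_a_field' := by
            have := ValuationSubring.not_isField_of_ne_top K hV
            exact fun h => this ((IsLocalRing.isField_iff_maximalIdeal_eq).mpr h) }

section Restrict

variable {Ω : Type*} [Field Ω] [Algebra ℚ Ω]
variable (A : ValuationSubring Ω) (K₀ : IntermediateField ℚ Ω)

/-- `A₀ = A ∩ K₀`. -/
def restrict : ValuationSubring K₀ := A.comap (algebraMap K₀ Ω)

variable {A K₀} in
theorem mem_restrict {x : K₀} : x ∈ restrict A K₀ ↔ (x : Ω) ∈ A := Iff.rfl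

/-- The inclusion `A₀ → A`. -/
def restrictHom : restrict A K₀ →+* A :=
  ((algebraMap K₀ Ω).comp (restrict A K₀).subtype).codRestrict A.toSubring (fun x => x.2)

@[simp]
theorem coe_restrictHom (x : restrict A K₀) : ((restrictHom A K₀ x : A) : Ω) = ((x : K₀) : Ω) :=
  rfl

theorem restrictHom_injective : Function.Injective (restrictHom A K₀) := by
  intro x y h
  have := congrArg (Subtype.val) h
  simp only [coe_restrictHom] at this
  exact Subtype.ext (Subtype.ext this)

theorem subtype_comp_restrictHom :
    A.subtype.comp (restrictHom A K₀) = (algebraMap K₀ Ω).comp (restrict A K₀).subtype := rfl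

variable {A K₀} in
theorem mem_nonunits_restrict {x : K₀} :
    x ∈ (restrict A K₀).nonunits ↔ (x : Ω) ∈ A.nonunits := by
  rw [ValuationSubring.mem_nonunits_iff_exists_mem_maximalIdeal,
    ValuationSubring.mem_nonunits_iff_exists_mem_maximalIdeal]
  constructor
  · rintro ⟨hx, hm⟩
    refine ⟨hx, ?_⟩
    rw [IsLocalRing.mem_maximalIdeal, mem_nonunits_iff] at hm ⊢
    intro hu
    apply hm
    obtain ⟨c, hc⟩ := isUnit_iff_exists_inv.mp hu
    have hc' : (x : Ω) * (c : Ω) = 1 := congrArg Subtype.val hc
    have hx0 : (x : Ω) ≠ 0 := left_ne_zero_of_mul_eq_one hc'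
    have hcx : (c : Ω) = ((x⁻¹ : K₀) : Ω) := by
      rw [IntermediateField.coe_inv]
      exact eq_inv_of_mul_eq_one_right hc'
    refine isUnit_iff_exists_inv.mpr ⟨⟨x⁻¹, ?_⟩, ?_⟩
    · rw [mem_restrict, ← hcx]; exact c.2
    · apply Subtype.ext
      have hx0' : x ≠ 0 := fun h => hx0 (by rw [h]; rfl)
      exact mul_inv_cancel₀ hx0'
  · rintro ⟨hx, hm⟩
    refine ⟨hx, ?_⟩
    rw [IsLocalRing.mem_maximalIdeal, mem_nonunits_iff] at hm ⊢
    intro hu
    apply hm
    exact hu.map (restrictHom A K₀)

instance isLocalHom_restrictHom : IsLocalHom (restrictHom A K₀) := by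
  constructor
  intro x hx
  by_contra hx'
  have h1 : (x : K₀) ∈ (restrict A K₀).nonunits := by
    rw [ValuationSubring.mem_nonunits_iff_exists_mem_maximalIdeal]
    exact ⟨x.2, by rwa [IsLocalRing.mem_maximalIdeal, mem_nonunits_iff]⟩
  have h2 := mem_nonunits_restrict.mp h1
  rw [ValuationSubring.mem_nonunits_iff_exists_mem_maximalIdeal] at h2
  obtain ⟨hxA, hm⟩ := h2
  rw [IsLocalRing.mem_maximalIdeal, mem_nonunits_iff] at hm
  exact hm hx

/-- The injection of residue fields `k(A₀) → k(A)`. -/
def residueMap : IsLocalRing.ResidueField (restrict A K₀) →+* IsLocalRing.ResidueField A :=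
  IsLocalRing.ResidueField.map (restrictHom A K₀)

theorem residueMap_injective : Function.Injective (residueMap A K₀) :=
  (residueMap A K₀).injective

theorem residueMap_comp_residue :
    (residueMap A K₀).comp (IsLocalRing.residue (restrict A K₀)) =
      (IsLocalRing.residue A).comp (restrictHom A K₀) := rfl

variable {A} in
theorem restrict_liesOverPrime {ℓ : ℕ} (h : A.LiesOverPrime ℓ) :
    (restrict A K₀).LiesOverPrime ℓ := by
  unfold ValuationSubring.LiesOverPrime at h ⊢
  rw [mem_nonunits_restrict]
  simpa using h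

variable {A} in
theorem restrict_ne_top {ℓ : ℕ} (hℓ : ℓ ≠ 0) (h : A.LiesOverPrime ℓ) : restrict A K₀ ≠ ⊤ := by
  intro htop
  have h1 := restrict_liesOverPrime K₀ h
  unfold ValuationSubring.LiesOverPrime at h1
  rw [htop, ValuationSubring.mem_nonunits_iff_exists_mem_maximalIdeal] at h1
  obtain ⟨hx, hm⟩ := h1
  rw [IsLocalRing.mem_maximalIdeal, mem_nonunits_iff] at hm
  apply hm
  have h0 : ((ℓ : K₀)) ≠ 0 := Nat.cast_ne_zero.mpr hℓ
  refine isUnit_iff_exists_inv.mpr ⟨⟨(ℓ : K₀)⁻¹, ValuationSubring.mem_top _⟩, ?_⟩
  apply Subtype.ext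
  exact mul_inv_cancel₀ h0

variable {A} in
/-- `A₀ = A ∩ K₀` is a discrete valuation ring. -/
theorem isDiscreteValuationRing_restrict [FiniteDimensional ℚ K₀] {ℓ : ℕ} (hℓ : ℓ ≠ 0)
    (h : A.LiesOverPrime ℓ) : IsDiscreteValuationRing (restrict A K₀) := by
  haveI : NumberField K₀ :=
    { to_charZero := inferInstance
      to_finiteDimensional := by
        convert ‹FiniteDimensional ℚ K₀›
        exact Subsingleton.elim _ _ }
  exact isDiscreteValuationRing_of_numberField _ (restrict_ne_top K₀ hℓ h)

end Restrict

section Series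

variable {L : Type*} [Field L]

/-- A Laurent series over a field with coefficients in a valuation subring. -/
def liftSeries (V : ValuationSubring L) (y : LaurentSeries L) (hy : ∀ k, y.coeff k ∈ V) :
    LaurentSeries V where
  coeff k := ⟨y.coeff k, hy k⟩
  isPWO_support' := y.isPWO_support.mono (by
    intro k hk
    simp only [Function.mem_support, ne_eq, HahnSeries.mem_support] at hk ⊢
    intro h0
    exact hk (Subtype.ext h0))

@[simp]
theorem coeffMap_subtype_liftSeries (V : ValuationSubring L) (y : LaurentSeries L)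
    (hy : ∀ k, y.coeff k ∈ V) : coeffMap V.subtype (liftSeries V y hy) = y := by
  ext k
  rfl

variable {Ω : Type*} [Field Ω] [Algebra ℚ Ω]
variable (A : ValuationSubring Ω) (K₀ : IntermediateField ℚ Ω)

/-- A Laurent series over `K₀` whose image over `Ω` has coefficients in `A` comes from a Laurent
series over `A₀ = A ∩ K₀`. -/
theorem exists_series_restrict (P : LaurentSeries A) (y : LaurentSeries K₀)
    (h : coeffMap (algebraMap K₀ Ω) y = coeffMap A.subtype P) :
    ∃ P₀ : LaurentSeries (restrict A K₀),
      coeffMap (restrict A K₀).subtype P₀ = y ∧ coeffMap (restrictHom A K₀) P₀ = P := by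
  have hy : ∀ k, y.coeff k ∈ restrict A K₀ := by
    intro k
    rw [mem_restrict]
    have := congrArg (fun z => z.coeff k) h
    simp only [coeffMap_coeff] at this
    have h2 : ((y.coeff k : K₀) : Ω) = ((P.coeff k : A) : Ω) := this
    rw [h2]
    exact (P.coeff k).2
  refine ⟨liftSeries _ y hy, coeffMap_subtype_liftSeries _ _ _, ?_⟩
  ext k
  have := congrArg (fun z => z.coeff k) h
  simp only [coeffMap_coeff] at this
  exact this

end Series

end Fermat.Agent.S18.Descent
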