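/-
KL-A, node (5) DESCENT: reduction of the key lemma `KL N A n` (over `ℚ̄`, `A` a valuation subring
of `ℚ̄`) to the same statement over number fields `K₀ ⊆ ℚ̄` and the DVR `A₀ = A ∩ K₀`.
Owner: helper248.

* `KL₀ F₀ A K₀ n` : the number field version.  Hypotheses: `P Q : A₀((q))` with images in
  `F_{K₀} = laurentBaseChange K₀ F₀`, equal nonzero reductions, `n ∣ ord_w (P/Q)` for ALL places
  `w` of `F_{K₀}/K₀`.  Conclusion: `∃ s ≠ 0, s ^ n * (P/Q)` is algebraic over `K₀`.
* `KL_of_KL₀'` (general `F₀`), `KL_of_KL₀` (for `modularFunctionFieldBar N`): if `KL₀` holds for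
  all sufficiently large number fields `K₀` then `KL` holds.

`restrict A K₀` is a DVR by `isDiscreteValuationRing_restrict` (file `DVR.lean`).
-/
import Mathlib
import Fermat.Agent.GAL.KLStatement
import Fermat.Agent.S18.Descent.Union
import Fermat.Agent.S18.Descent.DVR

set_option autoImplicit false
set_option linter.style.haveILetI false

noncomputable section

namespace Fermat.Agent.S18.Descent

open AlgebraicCurve ModularCurve Fermat.Agent.S24.FF

section Abstract

variable {K F K' F' : Type*} [Field K] [Field F] [Field K'] [Field F']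
  [Algebra K F] [Algebra K' F']

/-- Algebraic elements stay algebraic, hence become constants over an algebraically closed
constant field. -/
theorem exists_const_of_isAlgebraic [IsAlgClosed K'] (φ : K →+* K') (Φ : F →+* F')
    (hcomp : ∀ a : K, Φ (algebraMap K F a) = algebraMap K' F' (φ a)) {z : F}
    (hz : IsAlgebraic K z) : ∃ c : K', Φ z = algebraMap K' F' c := by
  obtain ⟨p, hp0, hp⟩ := hz
  have halg : IsAlgebraic K' (Φ z) := by
    refine ⟨p.map φ, (Polynomial.map_ne_zero_iff φ.injective).mpr hp0, ?_⟩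
    rw [Polynomial.aeval_def, Polynomial.eval₂_map]
    have h1 : (algebraMap K' F').comp φ = Φ.comp (algebraMap K F) := by
      ext a
      exact (hcomp a).symm
    rw [h1, ← Polynomial.hom_eval₂, ← Polynomial.aeval_def, hp, map_zero]
  rcases exists_const_or_transcendental (K := K') (Φ z) with ⟨c, hc⟩ | htr
  · exact ⟨c, hc⟩
  · exact absurd halg htr

end Abstract

local notation "Qbar" => AlgebraicClosure ℚ

/-- The key lemma over the number field `K₀` and the discrete valuation ring `A₀ = A ∩ K₀`. -/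
def KL₀ (F₀ : IntermediateField ℚ (LaurentSeries ℚ)) (A : ValuationSubring Qbar)
    (K₀ : IntermediateField ℚ Qbar) (n : ℕ) : Prop :=
  ∀ (P Q : LaurentSeries (restrict A K₀))
    (hP : coeffMap (restrict A K₀).subtype P ∈ laurentBaseChange K₀ F₀)
    (hQ : coeffMap (restrict A K₀).subtype Q ∈ laurentBaseChange K₀ F₀),
    coeffMap (IsLocalRing.residue (restrict A K₀)) P =
      coeffMap (IsLocalRing.residue (restrict A K₀)) Q →
    coeffMap (IsLocalRing.residue (restrict A K₀)) Q ≠ 0 →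
    (∀ w : Place K₀ (laurentBaseChange K₀ F₀),
      (n : ℤ) ∣ w.ord ((⟨coeffMap (restrict A K₀).subtype P, hP⟩ : laurentBaseChange K₀ F₀) /
        ⟨coeffMap (restrict A K₀).subtype Q, hQ⟩)) →
    ∃ s : laurentBaseChange K₀ F₀, s ≠ 0 ∧
      IsAlgebraic K₀ (s ^ n *
        ((⟨coeffMap (restrict A K₀).subtype P, hP⟩ : laurentBaseChange K₀ F₀) /
          ⟨coeffMap (restrict A K₀).subtype Q, hQ⟩))

/-- **Descent**, general form. -/
theorem KL_of_KL₀' (F₀ : IntermediateField ℚ (LaurentSeries ℚ))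
    [IsFF1 Qbar (laurentBaseChange Qbar F₀)] (A : ValuationSubring Qbar) (n : ℕ) (hn : n ≠ 0)
    (K : IntermediateField ℚ Qbar) [FiniteDimensional ℚ K]
    (h : ∀ K₀ : IntermediateField ℚ Qbar, FiniteDimensional ℚ K₀ → K ≤ K₀ → KL₀ F₀ A K₀ n)
    (P Q : LaurentSeries A)
    (hP : coeffMap A.subtype P ∈ laurentBaseChange Qbar F₀)
    (hQ : coeffMap A.subtype Q ∈ laurentBaseChange Qbar F₀)
    (hres : coeffMap (IsLocalRing.residue A) P = coeffMap (IsLocalRing.residue A) Q)
    (hres0 : coeffMap (IsLocalRing.residue A) Q ≠ 0)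
    (hdvd : ∀ v : Place Qbar (laurentBaseChange Qbar F₀),
      (n : ℤ) ∣ v.ord ((⟨coeffMap A.subtype P, hP⟩ : laurentBaseChange Qbar F₀) /
        ⟨coeffMap A.subtype Q, hQ⟩)) :
    ∃ u : laurentBaseChange Qbar F₀,
      (⟨coeffMap A.subtype P, hP⟩ : laurentBaseChange Qbar F₀) / ⟨coeffMap A.subtype Q, hQ⟩
        = u ^ n := by
  classical
  haveI : Algebra.IsAlgebraic ℚ Qbar := AlgebraicClosure.isAlgebraic ℚ
  set H : laurentBaseChange Qbar F₀ :=
    (⟨coeffMap A.subtype P, hP⟩ : laurentBaseChange Qbar F₀) / ⟨coeffMap A.subtype Q, hQ⟩ with hH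
  -- uniformisers at the support of `H`
  have hfin : {v : Place Qbar (laurentBaseChange Qbar F₀) | v.ord H ≠ 0}.Finite :=
    finite_ord_ne_zero H
  choose t ht using fun v : Place Qbar (laurentBaseChange Qbar F₀) => exists_ord_eq_one v
  let S : Finset (LaurentSeries Qbar) :=
    insert (coeffMap A.subtype P) (insert (coeffMap A.subtype Q)
      (hfin.toFinset.image fun v => ((t v : laurentBaseChange Qbar F₀) : LaurentSeries Qbar)))
  have hS : ∀ x ∈ S, x ∈ laurentBaseChange Qbar F₀ := by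
    intro x hx
    simp only [S, Finset.mem_insert, Finset.mem_image] at hx
    rcases hx with rfl | rfl | ⟨v, -, rfl⟩
    · exact hP
    · exact hQ
    · exact (t v).2
  obtain ⟨K₀, hK₀fin, hKK₀, -, hdef⟩ := exists_definedOver_finset S hS ∅ K
  obtain ⟨yP, hyP, hyP'⟩ := hdef (coeffMap A.subtype P) (by simp [S])
  obtain ⟨yQ, hyQ, hyQ'⟩ := hdef (coeffMap A.subtype Q) (by simp [S])
  obtain ⟨P₀, hP₀, hP₀'⟩ := exists_series_restrict A K₀ P yP hyP'
  obtain ⟨Q₀, hQ₀, hQ₀'⟩ := exists_series_restrict A K₀ Q yQ hyQ'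
  subst hP₀ hQ₀
  -- the maps
  let φ : K₀ →+* Qbar := algebraMap K₀ Qbar
  let Φ : laurentBaseChange K₀ F₀ →+* laurentBaseChange Qbar F₀ := baseChangeMap F₀ φ
  have hcomp : ∀ a : K₀, Φ (algebraMap K₀ (laurentBaseChange K₀ F₀) a) =
      algebraMap Qbar (laurentBaseChange Qbar F₀) (φ a) := fun a => baseChangeMap_algebraMap φ a
  have hint : φ.IsIntegral := by
    intro c
    have h1 : IsIntegral ℚ c := (AlgebraicClosure.isAlgebraic ℚ).isAlgebraic c |>.isIntegral
    exact h1.tower_top (A := K₀)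
  set h₀ : laurentBaseChange K₀ F₀ :=
    (⟨coeffMap (restrict A K₀).subtype P₀, hyP⟩ : laurentBaseChange K₀ F₀) /
      ⟨coeffMap (restrict A K₀).subtype Q₀, hyQ⟩ with hh₀
  have hΦh : Φ h₀ = H := by
    rw [hh₀, hH, map_div₀]
    congr 1
    · exact Subtype.ext hyP'
    · exact Subtype.ext hyQ'
  -- residues
  have hinj := coeffMap_injective (residueMap A K₀) (residueMap_injective A K₀)
  have hresP : ∀ X : LaurentSeries (restrict A K₀),
      coeffMap (residueMap A K₀) (coeffMap (IsLocalRing.residue (restrict A K₀)) X) =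
        coeffMap (IsLocalRing.residue A) (coeffMap (restrictHom A K₀) X) := by
    intro X
    rw [coeffMap_coeffMap, coeffMap_coeffMap, residueMap_comp_residue]
  have hres₀ : coeffMap (IsLocalRing.residue (restrict A K₀)) P₀ =
      coeffMap (IsLocalRing.residue (restrict A K₀)) Q₀ := by
    apply hinj
    rw [hresP, hresP, hP₀', hQ₀', hres]
  have hres0₀ : coeffMap (IsLocalRing.residue (restrict A K₀)) Q₀ ≠ 0 := by
    intro h0
    apply hres0
    rw [← hQ₀', ← hresP, h0, map_zero]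
  -- divisibility
  have hdvd₀ : ∀ w : Place K₀ (laurentBaseChange K₀ F₀), (n : ℤ) ∣ w.ord h₀ := by
    refine dvd_ord_of_forall_dvd_ord φ Φ hcomp hint h₀ n ?_ ?_
    · intro v hv
      rw [hΦh] at hv
      obtain ⟨y, hy, hy'⟩ := hdef ((t v : laurentBaseChange Qbar F₀) : LaurentSeries Qbar) (by
        simp only [S, Finset.mem_insert, Finset.mem_image]
        exact Or.inr (Or.inr ⟨v, hfin.mem_toFinset.mpr hv, rfl⟩))
      refine ⟨⟨y, hy⟩, ?_⟩
      have : Φ ⟨y, hy⟩ = t v := Subtype.ext hy'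
      rw [this, ht]
    · intro v
      rw [hΦh]
      exact hdvd v
  obtain ⟨s, hs0, hs⟩ := h K₀ hK₀fin hKK₀ P₀ Q₀ hyP hyQ hres₀ hres0₀ hdvd₀
  obtain ⟨c, hc⟩ := exists_const_of_isAlgebraic φ Φ hcomp hs
  obtain ⟨d, hd⟩ := IsAlgClosed.exists_pow_nat_eq c (Nat.pos_of_ne_zero hn)
  refine ⟨algebraMap Qbar _ d / Φ s, ?_⟩
  have hΦs : Φ s ≠ 0 := (map_ne_zero Φ).mpr hs0
  rw [map_mul, map_pow, hΦh] at hc
  rw [div_pow, ← map_pow, hd, ← hc]
  field_simp

/-- **Descent** for the function field of `X₀(N)`: `KL` over `ℚ̄` follows from `KL₀` over all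
sufficiently large number fields. -/
theorem KL_of_KL₀ (N : ℕ) [IsFF1 Qbar (modularFunctionFieldBar N)] (A : ValuationSubring Qbar)
    (n : ℕ) (hn : n ≠ 0) (K : IntermediateField ℚ Qbar) [FiniteDimensional ℚ K]
    (h : ∀ K₀ : IntermediateField ℚ Qbar, FiniteDimensional ℚ K₀ → K ≤ K₀ →
      KL₀ (modularFunctionFieldFull N) A K₀ n) : Fermat.Agent.GAL.KL N A n := by
  intro P Q hP hQ hres hres0 hdvd
  exact KL_of_KL₀' (modularFunctionFieldFull N) A n hn K h P Q hP hQ hres hres0 hdvd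

end Fermat.Agent.S18.Descent
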