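/-
KL-A, DESCENT, horizontal inputs (4): the transfer theorems of `Horizontal.lean` specialised to
`F_{K₀} = laurentBaseChange K₀ F₀ → F_{ℚ̄} = laurentBaseChange ℚ̄ F₀`.
Owner: helper248.
-/
import Mathlib
import Fermat.Agent.S18.Descent.FF1
import Fermat.Agent.S18.Descent.Horizontal

set_option autoImplicit false
set_option linter.style.haveILetI false

noncomputable section

namespace Fermat.Agent.S18.Descent

open AlgebraicCurve ModularCurve Fermat.Agent.S24.FF Polynomial

local notation "Qbar" => AlgebraicClosure ℚ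

variable (F₀ : IntermediateField ℚ (LaurentSeries ℚ)) (K₀ : IntermediateField ℚ Qbar)

/-- The embedding `F_{K₀} → F_{ℚ̄}`. -/
abbrev toBar : laurentBaseChange K₀ F₀ →+* laurentBaseChange Qbar F₀ :=
  baseChangeMap F₀ (algebraMap K₀ Qbar)

theorem toBar_algebraMap (a : K₀) :
    toBar F₀ K₀ (algebraMap K₀ (laurentBaseChange K₀ F₀) a) =
      algebraMap Qbar (laurentBaseChange Qbar F₀) (algebraMap K₀ Qbar a) :=
  baseChangeMap_algebraMap _ a

instance isIntegral_Qbar : Algebra.IsIntegral K₀ Qbar :=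
  ⟨fun c => ((AlgebraicClosure.isAlgebraic ℚ).isAlgebraic c).isIntegral.tower_top⟩

variable {F₀ K₀}

theorem toBar_ne_algebraMap {x : laurentBaseChange K₀ F₀} (hx : Transcendental K₀ x) (c : Qbar) :
    toBar F₀ K₀ x ≠ algebraMap Qbar (laurentBaseChange Qbar F₀) c := by
  intro h
  have h1 := transcendental_baseChangeMap (L' := Qbar) F₀ hx
  apply h1
  have h2 : baseChangeMap F₀ (algebraMap K₀ Qbar) x =
    algebraMap Qbar (laurentBaseChange Qbar F₀) c := h
  rw [h2]
  exact isAlgebraic_algebraMap c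

/-- **Transfer of unramifiedness to `K₀`.** -/
theorem unramOutsideVS_of_bar [IsFF1 Qbar (laurentBaseChange Qbar F₀)]
    [IsFF1 K₀ (laurentBaseChange K₀ F₀)] (x : laurentBaseChange K₀ F₀)
    (hx : Transcendental K₀ x) (g : K₀[X]) (hg : g ≠ 0)
    (hQ : ∀ c : Qbar, (g.map (algebraMap K₀ Qbar)).eval c ≠ 0 →
      ∀ v : Place Qbar (laurentBaseChange Qbar F₀),
        0 < v.ord (toBar F₀ K₀ x - algebraMap Qbar (laurentBaseChange Qbar F₀) c) →
        v.ord (toBar F₀ K₀ x - algebraMap Qbar (laurentBaseChange Qbar F₀) c) = 1) :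
    UnramOutsideVS K₀ x g := by
  refine unramOutsideVS_of_places x g fun w hw hgw => ?_
  have hg0 : aeval x g ≠ 0 := fun h0 => hg ((transcendental_iff.mp hx) g h0)
  exact exists_poly_ord_eq_one (toBar F₀ K₀) (toBar_algebraMap F₀ K₀) x (toBar_ne_algebraMap hx) g
    hQ w hw hg0 hgw

/-- Every place of `F_{K₀}` has a place of `F_{ℚ̄}` above it. -/
theorem exists_placeOver_bar [IsFF1 Qbar (laurentBaseChange Qbar F₀)]
    (w : Place K₀ (laurentBaseChange K₀ F₀)) :
    ∃ v : Place Qbar (laurentBaseChange Qbar F₀), PlaceOver (toBar F₀ K₀) v w :=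
  exists_placeOver (algebraMap K₀ Qbar) (toBar F₀ K₀) (toBar_algebraMap F₀ K₀)
    (fun c => Algebra.IsIntegral.isIntegral c) w

end Fermat.Agent.S18.Descent
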