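/-
KL-A, block DESC/Abs (task KLA-DESCABS, helper147): integrality over `K[x]` descends along algebraic
constant field extensions; `IsUnramOutside` descends; algebraic elements become `m`-th powers.
-/
import Mathlib
import Fermat.Agent.S18.Defs

set_option autoImplicit false
set_option linter.style.haveILetI false

noncomputable section

namespace Fermat.Agent.S18

open Polynomial IntermediateField

section PolyRing

variable {K₀ F : Type*} [Field K₀] [Field F] [Algebra K₀ F]

theorem descChart_mem_polyRing_top {x y : F} :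
    y ∈ polyRing (⊤ : Subring K₀) x ↔ ∃ p : K₀[X], aeval x p = y := by
  constructor
  · rintro ⟨p, rfl⟩
    exact ⟨p.map (⊤ : Subring K₀).subtype, rfl⟩
  · rintro ⟨p, rfl⟩
    have hsurj : Function.Surjective (⊤ : Subring K₀).subtype := fun c => ⟨⟨c, Subring.mem_top c⟩, rfl⟩
    obtain ⟨p', rfl⟩ := Polynomial.map_surjective _ hsurj p
    exact ⟨p', rfl⟩

theorem descChart_mem_chart {A₀ : Subring K₀} {x z : F} :
    z ∈ chart A₀ x ↔ IsIntegral (polyRing A₀ x) z := Iff.rfl

end PolyRing

section Abs

variable {K₀ K F₀ F : Type*} [Field K₀] [Field K] [Field F₀] [Field F] [Algebra K₀ F₀]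
  [Algebra K F] [Algebra K₀ K] [Algebra.IsAlgebraic K₀ K] (ι : F₀ →+* F)
  (hι : ∀ c : K₀, ι (algebraMap K₀ F₀ c) = algebraMap K F (algebraMap K₀ K c))

omit [Algebra.IsAlgebraic K₀ K] in
include hι in
theorem descChart_map_aeval (x : F₀) (p : K₀[X]) :
    ι (aeval x p) = aeval (ι x) (p.map (algebraMap K₀ K)) := by
  have hcomp : ι.comp (algebraMap K₀ F₀) = (algebraMap K F).comp (algebraMap K₀ K) :=
    RingHom.ext hι
  rw [aeval_def, aeval_def, Polynomial.hom_eval₂, eval₂_map, hcomp]

include hι in
theorem mem_chart_top_descent (x z : F₀) :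
    z ∈ chart (⊤ : Subring K₀) x ↔ ι z ∈ chart (⊤ : Subring K) (ι x) := by
  rw [descChart_mem_chart, descChart_mem_chart]
  set R₀ := polyRing (⊤ : Subring K₀) x with hR₀
  set R := polyRing (⊤ : Subring K) (ι x) with hR
  have hmap : ∀ y ∈ R₀, ι y ∈ R := by
    intro y hy
    obtain ⟨p, rfl⟩ := descChart_mem_polyRing_top.1 hy
    exact descChart_mem_polyRing_top.2 ⟨_, (descChart_map_aeval ι hι x p).symm⟩
  let φ : R₀ →+* R := (ι.comp R₀.subtype).codRestrict R (fun y => hmap y y.2)
  constructor
  · intro hz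
    exact IsIntegral.map_of_comp_eq φ ι (by ext; rfl) hz
  · intro hz
    letI : Algebra R₀ R := φ.toAlgebra
    letI : Algebra R₀ F := (ι.comp R₀.subtype).toAlgebra
    haveI : IsScalarTower R₀ R F := IsScalarTower.of_algebraMap_eq (fun y => rfl)
    have hconst : ∀ c : K, IsIntegral R₀ (algebraMap K F c) := by
      intro c
      have hc : IsIntegral K₀ c := (Algebra.IsAlgebraic.isAlgebraic c).isIntegral
      let κ : K₀ →+* R₀ := (algebraMap K₀ F₀).codRestrict R₀
        (fun a => descChart_mem_polyRing_top.2 ⟨C a, by simp⟩)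
      exact IsIntegral.map_of_comp_eq κ (algebraMap K F) (by
        ext a
        exact hι a) hc
    have hx : IsIntegral R₀ (ι x) := by
      have hxR : x ∈ R₀ := descChart_mem_polyRing_top.2 ⟨X, by simp⟩
      exact isIntegral_algebraMap (R := R₀) (A := F) (x := ⟨x, hxR⟩)
    haveI : Algebra.IsIntegral R₀ R := by
      refine ⟨fun y => ?_⟩
      rw [← isIntegral_algebraMap_iff (B := F) (Subtype.val_injective)]
      obtain ⟨p, hp⟩ := descChart_mem_polyRing_top.1 y.2
      change IsIntegral R₀ (y : F)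
      rw [← hp, aeval_eq_sum_range]
      refine IsIntegral.sum _ fun i _ => ?_
      rw [Algebra.smul_def]
      exact (hconst _).mul (hx.pow i)
    have h1 : IsIntegral R₀ (ι z) := isIntegral_trans (A := R) (ι z) hz
    let ιa : F₀ →ₐ[R₀] F := { ι with commutes' := fun y => rfl }
    exact (isIntegral_algHom_iff ιa ι.injective).1 h1

include hι in
theorem isUnramOutside_descent [CharZero K₀] (x : F₀) (g : K₀[X])
    (h : IsUnramOutside (ι x) (g.map (algebraMap K₀ K))) : IsUnramOutside x g := by
  intro f hf hfg z hz hz2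
  have hsq : Squarefree (f.map (algebraMap K₀ K)) :=
    ((PerfectField.separable_iff_squarefree.2 hf).map).squarefree
  have hcop : IsCoprime (f.map (algebraMap K₀ K)) (g.map (algebraMap K₀ K)) :=
    hfg.map (Polynomial.mapRingHom (algebraMap K₀ K))
  have h1 := h _ hsq hcop (ι z) ((mem_chart_top_descent ι hι x z).1 hz) (by
    rw [← descChart_map_aeval ι hι, ← map_pow, ← map_div₀]
    exact (mem_chart_top_descent ι hι x _).1 hz2)
  rw [← descChart_map_aeval ι hι, ← map_div₀] at h1
  exact (mem_chart_top_descent ι hι x _).2 h1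

omit [Algebra.IsAlgebraic K₀ K] in
include hι in
/-- an element algebraic over `K₀` becomes a constant, hence an `m`-th power, over `K`. -/
theorem exists_pow_eq_of_isAlgebraic [IsAlgClosed K] {m : ℕ} (hm : m ≠ 0) {z : F₀}
    (hz : IsAlgebraic K₀ z) : ∃ c : K, ι z = algebraMap K F c ^ m := by
  obtain ⟨p, hp0, hp⟩ := hz
  have halg : IsAlgebraic K (ι z) := by
    refine ⟨p.map (algebraMap K₀ K), ?_, ?_⟩
    · exact (Polynomial.map_ne_zero_iff (algebraMap K₀ K).injective).2 hp0
    · rw [← descChart_map_aeval ι hι, hp, map_zero]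
  have hint : IsIntegral K (ι z) := halg.isIntegral
  have hdeg : (minpoly K (ι z)).degree = 1 :=
    IsAlgClosed.degree_eq_one_of_irreducible K (minpoly.irreducible hint)
  obtain ⟨c₀, hc₀⟩ := minpoly.mem_range_of_degree_eq_one K (ι z) hdeg
  obtain ⟨c, hc⟩ := IsAlgClosed.exists_pow_nat_eq c₀ (Nat.pos_of_ne_zero hm)
  exact ⟨c, by rw [← map_pow, hc, hc₀]⟩

end Abs

end Fermat.Agent.S18
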