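/-
KL-A, task KLA-DVR (owner of this file: helper267): `A ∩ K₀` is a DVR in the `IsUnif` shape of
`S18/Defs.lean`, deduced from `Descent/DVR.lean` (helper248).
-/
import Mathlib
import Fermat.Agent.S18.Defs
import Fermat.Agent.S18.Descent.DVR
import Fermat.Agent.S24.Defs

set_option autoImplicit false

noncomputable section

namespace Fermat.Agent.S18

open Fermat.Agent.S24

/-- An irreducible element of a valuation subring which is a DVR is a uniformiser in the sense of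
`IsUnif`. -/
theorem isUnif_of_irreducible {F : Type*} [Field F] (V : ValuationSubring F)
    [IsDiscreteValuationRing V] (ϖ : V) (hϖ : Irreducible ϖ) : IsUnif V (ϖ : F) := by
  have hϖ0 : (ϖ : F) ≠ 0 := fun h => hϖ.ne_zero (Subtype.ext h)
  have key : ∀ y : F, y ≠ 0 → y ∈ V → ∃ n : ℕ, y / (ϖ : F) ^ n ∈ V ∧ (y / (ϖ : F) ^ n)⁻¹ ∈ V := by
    intro y hy0 hy
    have hy0' : (⟨y, hy⟩ : V) ≠ 0 := fun h => hy0 (congrArg Subtype.val h)
    obtain ⟨n, u, hu⟩ := IsDiscreteValuationRing.eq_unit_mul_pow_irreducible hy0' hϖ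
    have hu' : y = ((u : V) : F) * (ϖ : F) ^ n := by
      have := congrArg Subtype.val hu
      simpa using this
    have h1 : y / (ϖ : F) ^ n = ((u : V) : F) := by
      rw [hu', mul_div_assoc, div_self (pow_ne_zero _ hϖ0), mul_one]
    refine ⟨n, ?_, ?_⟩
    · rw [h1]; exact (u : V).2
    · rw [h1]
      have h2 : ((u : V) : F) * (((u⁻¹ : Vˣ) : V) : F) = 1 :=
        congrArg Subtype.val u.mul_inv
      rw [← eq_inv_of_mul_eq_one_right h2]
      exact ((u⁻¹ : Vˣ) : V).2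
  refine ⟨ϖ.2, ?_, ?_⟩
  · intro h
    apply hϖ.not_isUnit
    refine isUnit_iff_exists_inv.mpr ⟨⟨(ϖ : F)⁻¹, h⟩, ?_⟩
    apply Subtype.ext
    exact mul_inv_cancel₀ hϖ0
  · intro y hy0
    rcases V.mem_or_inv_mem y with hy | hy
    · obtain ⟨n, h1, h2⟩ := key y hy0 hy
      exact ⟨n, by simpa using h1, by simpa using h2⟩
    · obtain ⟨n, h1, h2⟩ := key y⁻¹ (inv_ne_zero hy0) hy
      refine ⟨-(n : ℤ), ?_, ?_⟩
      · have : y / (ϖ : F) ^ (-(n : ℤ)) = (y⁻¹ / (ϖ : F) ^ n)⁻¹ := by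
          rw [zpow_neg, zpow_natCast, inv_div, div_inv_eq_mul, div_inv_eq_mul, mul_comm]
        rw [this]; exact h2
      · have : (y / (ϖ : F) ^ (-(n : ℤ)))⁻¹ = y⁻¹ / (ϖ : F) ^ n := by
          rw [zpow_neg, zpow_natCast, div_inv_eq_mul, mul_inv, div_eq_mul_inv]
        rw [this]; exact h1

theorem exists_isUnif_comap (A : ValuationSubring Kbar) {ℓ : ℕ} [Fact ℓ.Prime]
    (hA : A.LiesOverPrime ℓ) (K₀ : IntermediateField ℚ Kbar) [FiniteDimensional ℚ K₀] :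
    ∃ ϖ₀ : K₀, IsUnif (A.comap (algebraMap K₀ Kbar)) ϖ₀ ∧
      (ℓ : K₀) / ϖ₀ ∈ A.comap (algebraMap K₀ Kbar) := by
  have hℓ : ℓ ≠ 0 := (Fact.out : ℓ.Prime).ne_zero
  have hdvr : IsDiscreteValuationRing (A.comap (algebraMap K₀ Kbar)) :=
    Descent.isDiscreteValuationRing_restrict K₀ hℓ hA
  obtain ⟨ϖ, hϖ⟩ := IsDiscreteValuationRing.exists_irreducible (A.comap (algebraMap K₀ Kbar))
  refine ⟨ϖ, isUnif_of_irreducible _ ϖ hϖ, ?_⟩
  have h1 : (ℓ : K₀) ∈ (A.comap (algebraMap K₀ Kbar)).nonunits :=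
    Descent.restrict_liesOverPrime K₀ hA
  rw [ValuationSubring.mem_nonunits_iff_exists_mem_maximalIdeal] at h1
  obtain ⟨hx, hm⟩ := h1
  rw [hϖ.maximalIdeal_eq, Ideal.mem_span_singleton] at hm
  obtain ⟨c, hc⟩ := hm
  have hϖ0 : (ϖ : K₀) ≠ 0 := fun h => hϖ.ne_zero (Subtype.ext h)
  have hc' : (ℓ : K₀) = (ϖ : K₀) * (c : K₀) := congrArg Subtype.val hc
  rw [hc', mul_div_cancel_left₀ _ hϖ0]
  exact c.2

end Fermat.Agent.S18
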