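/-
KL-A, DESCENT, horizontal inputs (5): the `j`-line.  For every subfield `K₀` of `ℚ̄`, the function
field `F_{K₀}` of `X₀(N)` over `K₀` is a function field in one variable, `j` is transcendental,
and `F_{K₀}/K₀(j)` is unramified outside `j (j - 1728)` (finite chart) and outside
`j⁻¹ (1 - 1728 j⁻¹)` (chart at infinity), in the shapes of `Lib/GoodRed`.
Owner: helper248.
-/
import Mathlib
import Fermat.Prelude.Def_ModularCurve_X0ModL
import Fermat.Agent.S24.Export.Ramification
import Fermat.Agent.S18.Descent.HorizontalBC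

set_option autoImplicit false
set_option linter.style.haveILetI false

noncomputable section

namespace Fermat.Agent.S18.Descent

open AlgebraicCurve ModularCurve Fermat.Agent.S24.FF Polynomial Fermat.Agent.S24

local notation "Qbar" => AlgebraicClosure ℚ

section jK

variable (N : ℕ) (L : Type*) [Field L] [Algebra ℚ L]

theorem coeffEmb_jq : coeffEmb L jq = jqModC L := by
  rw [coeffEmb, ← jqModC_rat, coeffMap_jqModC]

theorem jqModC_mem_baseChange : jqModC L ∈ laurentBaseChange L (modularFunctionFieldFull N) := by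
  rw [← coeffEmb_jq]
  apply coeffEmb_mem_laurentBaseChange
  have h := jqd_mem_full N (one_dvd N)
  rwa [qExpand_one_apply] at h

/-- `j` as an element of the function field of `X₀(N)` over `L`. -/
def jK : laurentBaseChange L (modularFunctionFieldFull N) := ⟨jqModC L, jqModC_mem_baseChange N L⟩

@[simp]
theorem coe_jK : ((jK N L : laurentBaseChange L (modularFunctionFieldFull N)) : LaurentSeries L) =
    jqModC L := rfl

theorem baseChangeMap_jK {L' : Type*} [Field L'] [Algebra ℚ L'] (φ : L →+* L') :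
    baseChangeMap (modularFunctionFieldFull N) φ (jK N L) = jK N L' :=
  Subtype.ext (coeffMap_jqModC φ)

theorem jK_bar : jK N Qbar = jF N := by
  apply Subtype.ext
  show jqModC Qbar = Jser 1
  rw [Formal.Jser_one, coeffEmb_jq]

end jK

variable (N : ℕ) [NeZero N] (K₀ : IntermediateField ℚ Qbar)

instance isFF1_bar : IsFF1 Qbar (laurentBaseChange Qbar (modularFunctionFieldFull N)) :=
  Export.isFF1 N

instance isFF1_K₀ : IsFF1 K₀ (laurentBaseChange K₀ (modularFunctionFieldFull N)) :=
  isFF1_of_baseChange (L' := Qbar) (finite_divisorExpansions N) rfl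

theorem toBar_jK : toBar (modularFunctionFieldFull N) K₀ (jK N K₀) = jF N := by
  rw [← jK_bar]
  exact baseChangeMap_jK N K₀ _

theorem transcendental_jK : Transcendental K₀ (jK N K₀) := by
  intro halg
  obtain ⟨p, hp0, hp⟩ := halg
  apply Formal.transcendental_jF N
  refine ⟨p.map (algebraMap K₀ Qbar), (Polynomial.map_ne_zero_iff (algebraMap K₀ Qbar).injective).mpr hp0, ?_⟩
  have h := map_aeval_eq (toBar (modularFunctionFieldFull N) K₀)
    (toBar_algebraMap (modularFunctionFieldFull N) K₀) (jK N K₀) p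
  rw [hp, map_zero, toBar_jK] at h
  exact h.symm

instance finiteDimensional_jK :
    FiniteDimensional (IntermediateField.adjoin K₀ {jK N K₀})
      (laurentBaseChange K₀ (modularFunctionFieldFull N)) :=
  IsFF1.finite _ (transcendental_jK N K₀)

/-- `F_{K₀}/K₀(j)` is unramified outside `j (j - 1728)`. -/
theorem unramOutsideVS_jK : UnramOutsideVS K₀ (jK N K₀) (X * (X - C 1728)) := by
  refine unramOutsideVS_of_bar (jK N K₀) (transcendental_jK N K₀) _
    (mul_ne_zero X_ne_zero (X_sub_C_ne_zero _)) ?_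
  intro c hc v hv
  rw [toBar_jK] at hv ⊢
  simp only [Polynomial.map_mul, Polynomial.map_sub, map_X, map_C, eval_mul, eval_X, eval_sub,
    eval_C, ne_eq, mul_eq_zero, not_or] at hc
  refine Export.ord_jF_sub_eq_one N c hc.1 ?_ v hv
  intro h
  apply hc.2
  rw [h, map_ofNat, sub_self]

/-- `F_{K₀}/K₀(j⁻¹)` is unramified outside `j⁻¹ (1 - 1728 j⁻¹)`. -/
theorem unramOutsideVS_jK_inv : UnramOutsideVS K₀ (jK N K₀)⁻¹ (X * (1 - C 1728 * X)) := by
  have hg : (X * (1 - C 1728 * X) : K₀[X]) ≠ 0 := by
    refine mul_ne_zero X_ne_zero ?_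
    intro h
    have := congrArg (eval 0) h
    simp at this
  refine unramOutsideVS_of_bar (jK N K₀)⁻¹ (transcendental_inv (transcendental_jK N K₀)) _ hg ?_
  intro c hc v hv
  rw [map_inv₀, toBar_jK] at hv ⊢
  simp only [Polynomial.map_mul, Polynomial.map_sub, map_X, map_C, eval_mul, eval_X, eval_sub,
    eval_C, ne_eq, mul_eq_zero, not_or, Polynomial.map_one, eval_one] at hc
  obtain ⟨hc0, hc1⟩ := hc
  set j := jF N with hj
  set cF := algebraMap Qbar (laurentBaseChange Qbar (modularFunctionFieldFull N)) c with hcF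
  have hcF0 : cF ≠ 0 := by simpa [hcF] using hc0
  have hordc : v.ord cF = 0 := ord_algebraMap v c
  have hj0 : j ≠ 0 := by
    intro h0
    rw [h0, inv_zero, zero_sub, ord_neg, hordc] at hv
    exact lt_irrefl _ hv
  -- `ord j = 0`
  have hjinv : v.ord j⁻¹ = 0 := by
    have h1 : j⁻¹ = cF + (j⁻¹ - cF) := by ring
    rw [h1, ord_add_eq_of_lt v hcF0 (by rw [hordc]; exact hv), hordc]
  have hjord : v.ord j = 0 := by
    rw [v.ord_inv] at hjinv
    omega
  -- `j⁻¹ - c = - c * (j - c⁻¹) * j⁻¹`
  have hkey : j⁻¹ - cF = -cF * (j - algebraMap Qbar _ c⁻¹) * j⁻¹ := by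
    rw [map_inv₀, ← hcF]
    field_simp
    ring
  have hne : j - algebraMap Qbar (laurentBaseChange Qbar (modularFunctionFieldFull N)) c⁻¹ ≠ 0 := by
    intro h0
    rw [hkey, h0] at hv
    simp at hv
  have hord : v.ord (j⁻¹ - cF) =
      v.ord (j - algebraMap Qbar (laurentBaseChange Qbar (modularFunctionFieldFull N)) c⁻¹) := by
    rw [hkey, v.ord_mul (mul_ne_zero (neg_ne_zero.mpr hcF0) hne) (inv_ne_zero hj0),
      v.ord_mul (neg_ne_zero.mpr hcF0) hne, ord_neg, hordc, hjinv]
    ring
  rw [hord] at hv ⊢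
  refine Export.ord_jF_sub_eq_one N c⁻¹ (inv_ne_zero hc0) ?_ v hv
  intro h
  apply hc1
  have : c = (1728 : Qbar)⁻¹ := by rw [← h, inv_inv]
  rw [this, map_ofNat, mul_inv_cancel₀ (by norm_num), sub_self]

end Fermat.Agent.S18.Descent
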