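/-
KL-A, block DESC: descent of `A`-integral series and of congruences to `A₀ = A ∩ K₀`;
integers prime to `ℓ` are units.
Owner: helper205.
-/
import Mathlib
import Fermat.Prelude.Def_FLTPrelim_Ramification
import Fermat.Prelude.Def_ModularCurve_LaurentCoeff
import Fermat.Agent.S24.Defs

set_option autoImplicit false

noncomputable section

namespace Fermat.Agent.S18

open Polynomial IntermediateField ModularCurve AlgebraicCurve Fermat.Agent.S24

/-- integers prime to `ℓ` are units of a valuation ring over `ℓ`. -/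
theorem natCast_inv_mem_of_liesOver {L : Type*} [Field L] (A : ValuationSubring L) {ℓ : ℕ}
    (hA : A.LiesOverPrime ℓ) [Fact ℓ.Prime] {n : ℕ} (hn : ¬ ℓ ∣ n) : ((n : L))⁻¹ ∈ A := by
  by_contra hcon
  have hℓ : (ℓ : L) ∈ A.nonunits := hA
  have hnA : (n : L) ∈ A := natCast_mem A n
  have hn0 : (n : L) ∈ A.nonunits := by
    rw [ValuationSubring.mem_nonunits_iff_exists_mem_maximalIdeal]
    refine ⟨hnA, ?_⟩
    rw [IsLocalRing.mem_maximalIdeal, mem_nonunits_iff]
    intro hu
    obtain ⟨u, hu⟩ := hu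
    apply hcon
    have h1 : ((u⁻¹ : (A)ˣ) : A) * (⟨(n : L), hnA⟩ : A) = 1 := by
      rw [← hu]; simp
    have h2 : (((u⁻¹ : (A)ˣ) : A) : L) * (n : L) = 1 := by
      have := congrArg (Subtype.val) h1
      simpa using this
    have h3 : ((n : L))⁻¹ = (((u⁻¹ : (A)ˣ) : A) : L) := (eq_inv_of_mul_eq_one_left h2).symm
    rw [h3]
    exact ((u⁻¹ : (A)ˣ) : A).2
  have hcop : Nat.Coprime ℓ n := (Nat.Prime.coprime_iff_not_dvd (Fact.out)).mpr hn
  have hbez : (1 : ℤ) = ℓ * Nat.gcdA ℓ n + n * Nat.gcdB ℓ n := by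
    have := Nat.gcd_eq_gcd_ab ℓ n
    rw [hcop] at this
    exact_mod_cast this
  obtain ⟨hℓA, hℓm⟩ := (ValuationSubring.mem_nonunits_iff_exists_mem_maximalIdeal).mp hℓ
  obtain ⟨_, hnm⟩ := (ValuationSubring.mem_nonunits_iff_exists_mem_maximalIdeal).mp hn0
  have h1 : (1 : A) ∈ IsLocalRing.maximalIdeal A := by
    have e : (1 : A) = (⟨(ℓ : L), hℓA⟩ : A) * ((Nat.gcdA ℓ n : ℤ) : A) +
        (⟨(n : L), hnA⟩ : A) * ((Nat.gcdB ℓ n : ℤ) : A) := by
      apply Subtype.ext
      have := congrArg (Int.cast : ℤ → L) hbez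
      push_cast at this ⊢
      exact this
    rw [e]
    exact Ideal.add_mem _ (Ideal.mul_mem_right _ _ hℓm) (Ideal.mul_mem_right _ _ hnm)
  exact (Ideal.ne_top_iff_one _).mp (IsLocalRing.maximalIdeal.isMaximal A).ne_top h1

/-- integers prime to `ℓ` are units. -/
theorem natCast_inv_mem_comap (A : ValuationSubring Kbar) {ℓ : ℕ} [Fact ℓ.Prime]
    (hA : A.LiesOverPrime ℓ) (K₀ : IntermediateField ℚ Kbar) {n : ℕ} (hn : ¬ ℓ ∣ n) :
    (n : K₀)⁻¹ ∈ A.comap (algebraMap K₀ Kbar) := by
  rw [ValuationSubring.mem_comap, map_inv₀, map_natCast]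
  exact natCast_inv_mem_of_liesOver A hA hn

/-- descent of integral series. -/
theorem exists_integral_descent (A : ValuationSubring Kbar) (K₀ : IntermediateField ℚ Kbar)
    (P : LaurentSeries A) (y : LaurentSeries K₀)
    (h : coeffMap (algebraMap K₀ Kbar) y = coeffMap A.subtype P) :
    ∃ P₀ : LaurentSeries (A.comap (algebraMap K₀ Kbar)),
      coeffMap (A.comap (algebraMap K₀ Kbar)).subtype P₀ = y := by
  have hmem : ∀ k : ℤ, y.coeff k ∈ A.comap (algebraMap K₀ Kbar) := fun k => by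
    rw [ValuationSubring.mem_comap]
    have := congrArg (fun z => HahnSeries.coeff z k) h
    simp only [coeffMap_coeff] at this
    rw [this]
    exact (P.coeff k).2
  refine ⟨⟨fun k => ⟨y.coeff k, hmem k⟩, ?_⟩, ?_⟩
  · refine y.isPWO_support.mono fun k hk => ?_
    rw [Function.mem_support] at hk
    rw [HahnSeries.mem_support]
    intro h0
    exact hk (Subtype.ext h0)
  · ext k
    rfl

theorem mem_nonunits_iff_inv_not_mem {M : Type*} [Field M] (B : ValuationSubring M) (x : M) :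
    x ∈ B.nonunits ↔ x = 0 ∨ x⁻¹ ∉ B := by
  rw [ValuationSubring.mem_nonunits_iff, ← not_le]
  rcases eq_or_ne x 0 with rfl | hx
  · simp
  · simp only [hx, false_or]
    rw [← ValuationSubring.valuation_le_one_iff, map_inv₀,
      inv_le_one₀ (zero_lt_iff.mpr ((B.valuation.ne_zero_iff).mpr hx))]

/-- An element of `A₀ = A ∩ K₀` lies in the maximal ideal iff its image does. -/
theorem mem_maximalIdeal_comap_iff {K₀ L : Type*} [Field K₀] [Field L] (f : K₀ →+* L)
    (A : ValuationSubring L) (a : A.comap f) (b : A) (hab : f (a : K₀) = (b : L)) :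
    a ∈ IsLocalRing.maximalIdeal (A.comap f) ↔ b ∈ IsLocalRing.maximalIdeal A := by
  have h1 : a ∈ IsLocalRing.maximalIdeal (A.comap f) ↔ (a : K₀) ∈ (A.comap f).nonunits := by
    rw [ValuationSubring.mem_nonunits_iff_exists_mem_maximalIdeal]
    exact ⟨fun h => ⟨a.2, h⟩, fun ⟨_, h⟩ => h⟩
  have h2 : b ∈ IsLocalRing.maximalIdeal A ↔ (b : L) ∈ A.nonunits := by
    rw [ValuationSubring.mem_nonunits_iff_exists_mem_maximalIdeal]
    exact ⟨fun h => ⟨b.2, h⟩, fun ⟨_, h⟩ => h⟩
  rw [h1, h2, ← hab]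
  rw [mem_nonunits_iff_inv_not_mem, mem_nonunits_iff_inv_not_mem, ValuationSubring.mem_comap,
    map_inv₀, map_eq_zero]

/-- descent of congruences. -/
theorem residue_descent (A : ValuationSubring Kbar) (K₀ : IntermediateField ℚ Kbar)
    (P Q : LaurentSeries A) (P₀ Q₀ : LaurentSeries (A.comap (algebraMap K₀ Kbar)))
    (hP : coeffMap (algebraMap K₀ Kbar) (coeffMap (A.comap (algebraMap K₀ Kbar)).subtype P₀) =
      coeffMap A.subtype P)
    (hQ : coeffMap (algebraMap K₀ Kbar) (coeffMap (A.comap (algebraMap K₀ Kbar)).subtype Q₀) =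
      coeffMap A.subtype Q) :
    coeffMap (IsLocalRing.residue A) P = coeffMap (IsLocalRing.residue A) Q ↔
      coeffMap (IsLocalRing.residue (A.comap (algebraMap K₀ Kbar))) P₀ =
        coeffMap (IsLocalRing.residue (A.comap (algebraMap K₀ Kbar))) Q₀ := by
  have hPk : ∀ k : ℤ, algebraMap K₀ Kbar ((P₀.coeff k : A.comap (algebraMap K₀ Kbar)) : K₀) =
      ((P.coeff k : A) : Kbar) := fun k => by
    exact congrArg (fun z => HahnSeries.coeff z k) hP
  have hQk : ∀ k : ℤ, algebraMap K₀ Kbar ((Q₀.coeff k : A.comap (algebraMap K₀ Kbar)) : K₀) =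
      ((Q.coeff k : A) : Kbar) := fun k => by
    exact congrArg (fun z => HahnSeries.coeff z k) hQ
  have hk : ∀ k : ℤ, IsLocalRing.residue A (P.coeff k) = IsLocalRing.residue A (Q.coeff k) ↔
      IsLocalRing.residue (A.comap (algebraMap K₀ Kbar)) (P₀.coeff k) =
        IsLocalRing.residue (A.comap (algebraMap K₀ Kbar)) (Q₀.coeff k) := fun k => by
    rw [← sub_eq_zero, ← map_sub, IsLocalRing.residue_eq_zero_iff, ← sub_eq_zero (a :=
      IsLocalRing.residue (A.comap (algebraMap K₀ Kbar)) (P₀.coeff k)), ← map_sub,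
      IsLocalRing.residue_eq_zero_iff]
    refine (mem_maximalIdeal_comap_iff (algebraMap K₀ Kbar) A _ _ ?_).symm
    show algebraMap K₀ Kbar (((P₀.coeff k : A.comap (algebraMap K₀ Kbar)) : K₀) -
      ((Q₀.coeff k : A.comap (algebraMap K₀ Kbar)) : K₀)) = ((P.coeff k : A) : Kbar) -
        ((Q.coeff k : A) : Kbar)
    rw [map_sub, hPk, hQk]
  constructor
  · intro h
    ext k
    have := congrArg (fun z => HahnSeries.coeff z k) h
    simp only [coeffMap_coeff] at this ⊢
    exact (hk k).mp this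
  · intro h
    ext k
    have := congrArg (fun z => HahnSeries.coeff z k) h
    simp only [coeffMap_coeff] at this ⊢
    exact (hk k).mpr this

end Fermat.Agent.S18
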