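/-
KL-A, DESCENT, horizontal inputs (6): the `h₂`-line (`2 ∣ M`) and the `h₃`-line (`3 ∣ M`).
For every subfield `K₀` of `ℚ̄`, `F_{K₀}/K₀(h_r)` is unramified outside `h (1 + 64 h)` resp.
`h (1 + 27 h)` (finite chart) and outside `h⁻¹ (h⁻¹ + 64)` resp. `h⁻¹ (h⁻¹ + 27)` (chart at
infinity), in the shapes of `Lib/GoodRed`.
Owner: helper248.
-/
import Mathlib
import Fermat.Agent.Lib.Hauptmodul.Bar
import Fermat.Agent.S18.Descent.JLine

set_option autoImplicit false
set_option linter.style.haveILetI false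

noncomputable section

namespace Fermat.Agent.S18.Descent

open AlgebraicCurve ModularCurve Fermat.Agent.S24.FF Polynomial Fermat.Agent.S24
  Fermat.Agent.Lib.Hauptmodul

local notation "Qbar" => AlgebraicClosure ℚ

section Inv

variable {K F : Type*} [Field K] [Field F] [Algebra K F]

/-- Passing to the chart at infinity: `ord_v (x⁻¹ - c) = ord_v (x - c⁻¹)` for `c ≠ 0`, at the
places where this is positive. -/
theorem ord_inv_sub_eq (v : Place K F) {x : F} {c : K} (hc0 : c ≠ 0)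
    (hv : 0 < v.ord (x⁻¹ - algebraMap K F c)) :
    v.ord (x⁻¹ - algebraMap K F c) = v.ord (x - algebraMap K F c⁻¹) := by
  set cF := algebraMap K F c with hcF
  have hcF0 : cF ≠ 0 := by simpa [hcF] using hc0
  have hordc : v.ord cF = 0 := ord_algebraMap v c
  have hx0 : x ≠ 0 := by
    intro h0
    rw [h0, inv_zero, zero_sub, ord_neg, hordc] at hv
    exact lt_irrefl _ hv
  have hxinv : v.ord x⁻¹ = 0 := by
    have h1 : x⁻¹ = cF + (x⁻¹ - cF) := by ring
    rw [h1, ord_add_eq_of_lt v hcF0 (by rw [hordc]; exact hv), hordc]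
  have hkey : x⁻¹ - cF = -cF * (x - algebraMap K F c⁻¹) * x⁻¹ := by
    rw [map_inv₀, ← hcF]
    field_simp
    ring
  have hne : x - algebraMap K F c⁻¹ ≠ 0 := by
    intro h0
    rw [hkey, h0] at hv
    simp at hv
  rw [hkey, v.ord_mul (mul_ne_zero (neg_ne_zero.mpr hcF0) hne) (inv_ne_zero hx0),
    v.ord_mul (neg_ne_zero.mpr hcF0) hne, ord_neg, hordc, hxinv]
  ring

end Inv

variable (M : ℕ) [NeZero M] (K₀ : IntermediateField ℚ Qbar)

local notation "FK₀" => laurentBaseChange K₀ (modularFunctionFieldFull M)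

section General

variable {M K₀}

/-- General form: a coordinate `x` of `F_{K₀}` whose image over `ℚ̄` is unramified outside a set
of values containing the roots of `g`. -/
theorem unramOutsideVS_of_bar' (x : FK₀) (X' : FN M)
    (hxX : toBar (modularFunctionFieldFull M) K₀ x = X') (htr : Transcendental Qbar X')
    (good : Qbar → Prop)
    (hram : ∀ c : Qbar, good c → ∀ v : Place Qbar (FN M),
      0 < v.ord (X' - algebraMap Qbar (FN M) c) → v.ord (X' - algebraMap Qbar (FN M) c) = 1)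
    (g : K₀[X]) (hg : g ≠ 0)
    (hgood : ∀ c : Qbar, (g.map (algebraMap K₀ Qbar)).eval c ≠ 0 → good c) :
    UnramOutsideVS K₀ x g := by
  have hx : Transcendental K₀ x := by
    intro halg
    obtain ⟨p, hp0, hp⟩ := halg
    apply htr
    refine ⟨p.map (algebraMap K₀ Qbar),
      (Polynomial.map_ne_zero_iff (algebraMap K₀ Qbar).injective).mpr hp0, ?_⟩
    have h := map_aeval_eq (toBar (modularFunctionFieldFull M) K₀)
      (toBar_algebraMap (modularFunctionFieldFull M) K₀) x p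
    rw [hp, map_zero, hxX] at h
    exact h.symm
  refine unramOutsideVS_of_bar x hx g hg ?_
  intro c hc v hv
  rw [hxX] at hv ⊢
  exact hram c (hgood c hc) v hv

/-- The same for the chart at infinity. -/
theorem unramOutsideVS_inv_of_bar' (x : FK₀) (X' : FN M)
    (hxX : toBar (modularFunctionFieldFull M) K₀ x = X') (htr : Transcendental Qbar X')
    (good : Qbar → Prop)
    (hram : ∀ c : Qbar, good c → ∀ v : Place Qbar (FN M),
      0 < v.ord (X' - algebraMap Qbar (FN M) c) → v.ord (X' - algebraMap Qbar (FN M) c) = 1)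
    (g : K₀[X]) (hg : g ≠ 0)
    (hgood : ∀ c : Qbar, (g.map (algebraMap K₀ Qbar)).eval c ≠ 0 → c ≠ 0 ∧ good c⁻¹) :
    UnramOutsideVS K₀ x⁻¹ g := by
  have hxX' : toBar (modularFunctionFieldFull M) K₀ x⁻¹ = X'⁻¹ := by rw [map_inv₀, hxX]
  have htr' : Transcendental Qbar X'⁻¹ := transcendental_inv htr
  have hram' : ∀ c : Qbar, (c ≠ 0 ∧ good c⁻¹) → ∀ v : Place Qbar (FN M),
      0 < v.ord (X'⁻¹ - algebraMap Qbar (FN M) c) →
      v.ord (X'⁻¹ - algebraMap Qbar (FN M) c) = 1 := by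
    rintro c ⟨hc0, hc⟩ v hv
    have h1 := ord_inv_sub_eq v hc0 hv
    rw [h1] at hv ⊢
    exact hram c⁻¹ hc v hv
  exact unramOutsideVS_of_bar' x⁻¹ X'⁻¹ hxX' htr' (fun c => c ≠ 0 ∧ good c⁻¹) hram' g hg hgood

end General

/-! ### The `h₂`-line -/

section H2


theorem toBar_h2 (hM : 2 ∣ M) (hP : toL K₀ h2Z ∈ FK₀) :
    toBar (modularFunctionFieldFull M) K₀ ⟨toL K₀ h2Z, hP⟩ = h2F M hM := by
  apply Subtype.ext
  rw [coe_h2F]
  exact coeffMap_toL _ _

theorem unramOutsideVS_h2 (hM : 2 ∣ M) (hP : toL K₀ h2Z ∈ FK₀) :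
    UnramOutsideVS K₀ (⟨toL K₀ h2Z, hP⟩ : FK₀) (X * (1 + C 64 * X)) := by
  refine unramOutsideVS_of_bar' _ (h2F M hM) (toBar_h2 M K₀ hM hP) (transcendental_h2F M hM)
    (fun c => c ≠ 0 ∧ 64 * c + 1 ≠ 0)
    (fun c hc v hv => ord_h2F_sub_eq_one M hM c hc.1 hc.2 v hv) _ ?_ ?_
  · refine mul_ne_zero X_ne_zero fun h => ?_
    have := congrArg (eval 0) h
    simp at this
  · intro c hc
    simp only [Polynomial.map_mul, Polynomial.map_add, map_X, map_C, eval_mul, eval_X, eval_add,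
      eval_C, ne_eq, mul_eq_zero, not_or, Polynomial.map_one, eval_one] at hc
    rw [map_ofNat] at hc
    exact ⟨hc.1, fun h => hc.2 (by linear_combination h)⟩

theorem unramOutsideVS_h2_inv (hM : 2 ∣ M) (hP : toL K₀ h2Z ∈ FK₀) :
    UnramOutsideVS K₀ (⟨toL K₀ h2Z, hP⟩ : FK₀)⁻¹ (X * (X + C 64)) := by
  refine unramOutsideVS_inv_of_bar' _ (h2F M hM) (toBar_h2 M K₀ hM hP) (transcendental_h2F M hM)
    (fun c => c ≠ 0 ∧ 64 * c + 1 ≠ 0)
    (fun c hc v hv => ord_h2F_sub_eq_one M hM c hc.1 hc.2 v hv) _ ?_ ?_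
  · exact mul_ne_zero X_ne_zero (X_add_C_ne_zero _)
  · intro c hc
    simp only [Polynomial.map_mul, Polynomial.map_add, map_X, map_C, eval_mul, eval_X, eval_add,
      eval_C, ne_eq, mul_eq_zero, not_or] at hc
    rw [map_ofNat] at hc
    refine ⟨hc.1, inv_ne_zero hc.1, fun h => hc.2 ?_⟩
    have hc0 := hc.1
    field_simp at h
    linear_combination h

end H2

/-! ### The `h₃`-line -/

section H3


theorem toBar_h3 (hM : 3 ∣ M) (hP : toL K₀ h3Z ∈ FK₀) :
    toBar (modularFunctionFieldFull M) K₀ ⟨toL K₀ h3Z, hP⟩ = h3F M hM := by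
  apply Subtype.ext
  rw [coe_h3F]
  exact coeffMap_toL _ _

theorem unramOutsideVS_h3 (hM : 3 ∣ M) (hP : toL K₀ h3Z ∈ FK₀) :
    UnramOutsideVS K₀ (⟨toL K₀ h3Z, hP⟩ : FK₀) (X * (1 + C 27 * X)) := by
  refine unramOutsideVS_of_bar' _ (h3F M hM) (toBar_h3 M K₀ hM hP) (transcendental_h3F M hM)
    (fun c => c ≠ 0 ∧ 27 * c + 1 ≠ 0)
    (fun c hc v hv => ord_h3F_sub_eq_one M hM c hc.1 hc.2 v hv) _ ?_ ?_
  · refine mul_ne_zero X_ne_zero fun h => ?_
    have := congrArg (eval 0) h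
    simp at this
  · intro c hc
    simp only [Polynomial.map_mul, Polynomial.map_add, map_X, map_C, eval_mul, eval_X, eval_add,
      eval_C, ne_eq, mul_eq_zero, not_or, Polynomial.map_one, eval_one] at hc
    rw [map_ofNat] at hc
    exact ⟨hc.1, fun h => hc.2 (by linear_combination h)⟩

theorem unramOutsideVS_h3_inv (hM : 3 ∣ M) (hP : toL K₀ h3Z ∈ FK₀) :
    UnramOutsideVS K₀ (⟨toL K₀ h3Z, hP⟩ : FK₀)⁻¹ (X * (X + C 27)) := by
  refine unramOutsideVS_inv_of_bar' _ (h3F M hM) (toBar_h3 M K₀ hM hP) (transcendental_h3F M hM)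
    (fun c => c ≠ 0 ∧ 27 * c + 1 ≠ 0)
    (fun c hc v hv => ord_h3F_sub_eq_one M hM c hc.1 hc.2 v hv) _ ?_ ?_
  · exact mul_ne_zero X_ne_zero (X_add_C_ne_zero _)
  · intro c hc
    simp only [Polynomial.map_mul, Polynomial.map_add, map_X, map_C, eval_mul, eval_X, eval_add,
      eval_C, ne_eq, mul_eq_zero, not_or] at hc
    rw [map_ofNat] at hc
    refine ⟨hc.1, inv_ne_zero hc.1, fun h => hc.2 ?_⟩
    have hc0 := hc.1
    field_simp at h
    linear_combination h

end H3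

end Fermat.Agent.S18.Descent
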